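/-
Project MW (statement S17, Mordell–Weil for `J₀(N)`, `N ≥ 5` prime): THE TOP SEAMS AND THE SEAMS OF
THE ARITHMETIC SIDE (co-architect: helper7; architect and height side: helper27).

`Γ := mw_Gamma N = (JZero N)^{G_ℚ}`.  Mathlib's descent theorem `AddCommGroup.fg_of_descent'`
(GroupTheory/Descent.lean) reduces S17 to TWO seams:

* `mw_SeamHeight N` : a function `h : Γ → ℝ`, `h ≥ 0`, with the APPROXIMATE parallelogram law and
                      the Northcott property (no canonical height, no limit is needed);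
* `mw_SeamWMW N`    : weak Mordell–Weil at `2`: `2Γ` has finite index in `Γ`.

The arithmetic side splits `mw_SeamWMW` into
* `mw_SeamDiv2 N`   : every rational class is divisible by `2` in `J₀(N)(Q̄)`;
* `mw_SeamTors2 N`  : `J₀(N)(Q̄)[2]` is finite;
* `mw_SeamHalf N`   : ONE number field `M ⊆ Q̄` over which all halves of rational classes are
                      rational (`mw_wmw_of_half` in `MW/Assembly.lean`),
and `mw_SeamHalf` into
* `mw_SeamSmooth N` : every class of `J₀(N)(Q̄)` has an open stabiliser;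
* `mw_SeamUnr N`    : halves of rational classes are fixed by the inertia groups at the primes
                      `p ∤ 2N` (from S18 + node E + inertia-compatibility of the reduction);
* `mw_SeamHM`       : Hermite–Minkowski in character form: for a number field `L ⊆ Q̄` and a finite
                      set `S` of primes, ONE number field `M ⊇ L` kills all quadratic characters of
                      `G_L` unramified outside `S`.
Prefix `mw_`.
-/
import Mathlib
import Fermat.Prelude.Def_ModularCurve_ArithmeticGalois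
import Fermat.Prelude.Def_FLTPrelim_Ramification

set_option autoImplicit false

noncomputable section

namespace Fermat.Agent.MW

open ModularCurve AlgebraicCurve

/-- the absolute Galois group of `ℚ`. -/
abbrev mw_G : Type := AlgebraicClosure ℚ ≃ₐ[ℚ] AlgebraicClosure ℚ

/-- the Mordell–Weil group `J₀(N)(ℚ) = J₀(N)(Q̄)^{G_ℚ}`. -/
abbrev mw_Gamma (N : ℕ) : AddSubgroup (JZero N) := FixedPoints.addSubgroup mw_G (JZero N)

theorem mw_mem_Gamma {N : ℕ} {x : JZero N} : x ∈ mw_Gamma N ↔ ∀ σ : mw_G, σ • x = x := Iff.rfl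

/-! ### the two top seams -/

/-- **(H) the height seam** (height side): a nonnegative function on `Γ` with the approximate
parallelogram law and the Northcott property. -/
def mw_SeamHeight (N : ℕ) : Prop :=
  ∃ (h : ↥(mw_Gamma N) → ℝ) (C : ℝ), (∀ x, 0 ≤ h x) ∧
    (∀ x y, |h (x + y) + h (x - y) - 2 * (h x + h y)| ≤ C) ∧ Northcott h

/-- **(W) weak Mordell–Weil at `2`**: `2Γ` has finite index in `Γ`. -/
def mw_SeamWMW (N : ℕ) : Prop :=
  (nsmulAddMonoidHom (α := ↥(mw_Gamma N)) 2).range.FiniteIndex

/-! ### the seams of weak Mordell–Weil -/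

/-- **(D2) [DIV-J] at `m = 2`**: every rational class is twice a class of `J₀(N)(Q̄)`. -/
def mw_SeamDiv2 (N : ℕ) : Prop :=
  ∀ x ∈ mw_Gamma N, ∃ y : JZero N, 2 • y = x

/-- **(T2)**: the `2`-torsion of `J₀(N)(Q̄)` is finite. -/
def mw_SeamTors2 (N : ℕ) : Prop :=
  {z : JZero N | 2 • z = 0}.Finite

/-- **(HALF)**: there is ONE number field `M ⊆ Q̄` such that every half of a rational class is
fixed by `Gal(Q̄/M)`. -/
def mw_SeamHalf (N : ℕ) : Prop :=
  ∃ M : IntermediateField ℚ (AlgebraicClosure ℚ), FiniteDimensional ℚ M ∧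
    ∀ x ∈ mw_Gamma N, ∀ y : JZero N, 2 • y = x → ∀ σ ∈ M.fixingSubgroup, σ • y = y

/-! ### the seams of (HALF) -/

/-- **(SM)**: every class of `J₀(N)(Q̄)` is fixed by `Gal(Q̄/K)` for some number field `K`. -/
def mw_SeamSmooth (N : ℕ) : Prop :=
  ∀ x : JZero N, ∃ K : IntermediateField ℚ (AlgebraicClosure ℚ), FiniteDimensional ℚ K ∧
    ∀ σ ∈ K.fixingSubgroup, σ • x = x

/-- **(UNR)**: a half of a rational class is fixed by the inertia groups at the primes `p ∤ 2N`. -/
def mw_SeamUnr (N : ℕ) : Prop :=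
  ∀ p : ℕ, p.Prime → ¬ p ∣ 2 * N → ∀ P : ValuationSubring (AlgebraicClosure ℚ),
    P.LiesOverPrime p → ∀ σ ∈ P.inertiaSubgroupIn ℚ,
      ∀ x ∈ mw_Gamma N, ∀ y : JZero N, 2 • y = x → σ • y = y

/-- **(HM) Hermite–Minkowski, character form**: for a number field `L ⊆ Q̄` and a finite set `S` of
primes there is a number field `M ⊇ L` such that every continuous character
`χ : Gal(Q̄/L) → ℤ/2` which is trivial on the inertia groups (intersected with `Gal(Q̄/L)`) at all
primes outside `S` is trivial on `Gal(Q̄/M)`. -/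
def mw_SeamHM : Prop :=
  ∀ (L : IntermediateField ℚ (AlgebraicClosure ℚ)), FiniteDimensional ℚ L →
    ∀ S : Finset ℕ, ∃ M : IntermediateField ℚ (AlgebraicClosure ℚ),
      FiniteDimensional ℚ M ∧ L ≤ M ∧
      ∀ χ : ↥L.fixingSubgroup →* Multiplicative (ZMod 2),
        (∃ K : IntermediateField ℚ (AlgebraicClosure ℚ), FiniteDimensional ℚ K ∧
          ∀ σ : ↥L.fixingSubgroup, (σ : mw_G) ∈ K.fixingSubgroup → χ σ = 1) →
        (∀ p : ℕ, p.Prime → p ∉ S → ∀ P : ValuationSubring (AlgebraicClosure ℚ),
          P.LiesOverPrime p → ∀ σ : ↥L.fixingSubgroup,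
            (σ : mw_G) ∈ P.inertiaSubgroupIn ℚ → χ σ = 1) →
        ∀ σ : ↥L.fixingSubgroup, (σ : mw_G) ∈ M.fixingSubgroup → χ σ = 1

end Fermat.Agent.MW
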