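/-
Project MW (S17, Mordell–Weil for `J₀(N)`): the objects of the HEIGHT SIDE (prefix `mw_`;
helper27).  `mw_G`, `mw_Gamma` come from `MW/SeamsArith.lean` (helper7).

Everything here is a *definition without proof obligations* (junk values outside the intended
domain), so that the seams of `MW/SeamsHeight.lean` can be stated today.  Conventions:

* `mw_K = Q̄`, `mw_F N` = function field of `X₀(N)` over `Q̄`, `mw_X N` = its places (= points).
* `mw_val P f` : the value of `f` at `P` (`0` at a pole).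
* `mw_vec ψ P` : a representative in `Q̄^{s+1}` of the projective point `(ψ₀(P) : … : ψ_s(P))`
  (divide by a `ψ_b` of minimal order at `P`: the *pivot* `mw_piv ψ P`).
* `mw_ht v` : the ABSOLUTE logarithmic Weil height of the projective point `v` (Mathlib's
  `Height.logHeight` over the number field generated by the coordinates, divided by its degree).
* `mw_hD x P Q` : the global *diagonal height* (`= ∑_w -log δ_w(P,Q)`, `δ_w` the chordal distance in
  the embedding `x`), written as `h(xP) + h(xQ) - h(xP ∧ xQ)`.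
* `mw_B x D E = -∑ nᵢ mⱼ h_Δ(Pᵢ,Qⱼ)` : the global Néron-type pairing of divisors with disjoint
  supports; exactly biadditive and symmetric by definition.
* local objects at an absolute value `w` of a number field `K' ≤ Q̄`: `mw_wabs`, `mw_wnorm`,
  `mw_delta`.
-/
import Mathlib
import Fermat.Agent.MW.SeamsArith
import Fermat.Prelude.Def_AlgebraicCurve_Repartitions

set_option autoImplicit false

noncomputable section

namespace Fermat.Agent.MW

open AlgebraicCurve ModularCurve
open scoped Classical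

/-! ### Basic types -/

/-- `Q̄` -/
abbrev mw_K : Type := AlgebraicClosure ℚ

/-- the function field of `X₀(N)` over `Q̄` (the prelude field, as a type) -/
abbrev mw_F (N : ℕ) : Type := ↥(modularFunctionFieldBar N)

/-- the points of `X₀(N)` over `Q̄` = the places of `mw_F N` -/
abbrev mw_X (N : ℕ) : Type := Place mw_K (mw_F N)

/-- divisors of `X₀(N)` over `Q̄` -/
abbrev mw_Div (N : ℕ) : Type := Divisor mw_K (mw_F N)

/-- divisors of degree `0` -/
abbrev mw_Div0 (N : ℕ) : Type := ↥(Divisor.degZero (K := mw_K) (F := mw_F N))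

/-- the class of a degree-zero divisor in `J₀(N)(Q̄)` -/
abbrev mw_cl {N : ℕ} (D : mw_Div0 N) : JZero N := Pic0.mk D

/-- `f` is defined over `ℚ` (its `q`-expansion has rational coefficients and lies in the rational
function field) -/
def mw_IsRat (N : ℕ) (f : mw_F N) : Prop :=
  ∃ y : LaurentSeries ℚ, y ∈ modularFunctionFieldFull N ∧
    coeffEmb mw_K y = (f : LaurentSeries mw_K)

/-- `P` is the cusp `∞` (the `q`-adic place) -/
def mw_IsInf (N : ℕ) (P : mw_X N) : Prop :=
  ∀ f : mw_F N, f ∈ P.toValuationSubring ↔ f = 0 ∨ 0 ≤ (f : LaurentSeries mw_K).order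

/-- the `L¹`-norm of a divisor -/
def mw_norm {N : ℕ} (D : mw_Div N) : ℕ := D.support.sum fun P => (D P).natAbs

/-- `D` is the divisor of `f` -/
def mw_IsDivOf {N : ℕ} (D : mw_Div N) (f : mw_F N) : Prop := f ≠ 0 ∧ ∀ P : mw_X N, D P = P.ord f

/-! ### Values and projective vectors -/

/-- the value of `f` at `P` (`0` if `f` has a pole at `P`) -/
def mw_val {N : ℕ} (P : mw_X N) (f : mw_F N) : mw_K :=
  if h : ∃ c : mw_K, f - algebraMap mw_K (mw_F N) c ∈ P.toValuationSubring.nonunits then h.choose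
  else 0

/-- the pivot: an index `b` with `ψ b ≠ 0` of minimal order at `P` -/
def mw_piv {N s : ℕ} (ψ : Fin (s + 1) → mw_F N) (P : mw_X N) : Fin (s + 1) :=
  if h : ∃ b, ψ b ≠ 0 ∧ ∀ a, ψ a / ψ b ∈ P.toValuationSubring then h.choose else 0

/-- a representative of the projective point `(ψ₀(P) : … : ψ_s(P))` -/
def mw_vec {N s : ℕ} (ψ : Fin (s + 1) → mw_F N) (P : mw_X N) : Fin (s + 1) → mw_K :=
  fun a => mw_val P (ψ a / ψ (mw_piv ψ P))

/-- the section `G_c = ∑ c_b ψ_b` of the linear system spanned by `ψ` -/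
def mw_sec {N s : ℕ} (ψ : Fin (s + 1) → mw_F N) (c : Fin (s + 1) → mw_K) : mw_F N :=
  ∑ b, algebraMap mw_K (mw_F N) (c b) * ψ b

/-- the multiplicity of `z` in the zero divisor `Z_c` of the section `G_c` (as a section of the
linear system `ψ`: `ord_z (G_c) - min_b ord_z (ψ_b)`) -/
def mw_zeroMult {N s : ℕ} (ψ : Fin (s + 1) → mw_F N) (c : Fin (s + 1) → mw_K) (z : mw_X N) : ℤ :=
  z.ord (mw_sec ψ c / ψ (mw_piv ψ z))

/-- the linear form `⟨c, v⟩` -/
def mw_dot {s : ℕ} (c v : Fin (s + 1) → mw_K) : mw_K := ∑ b, c b * v b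

/-- the Plücker vector `u ∧ v` (all `2 × 2` minors, indexed by all pairs) -/
def mw_wedge {r : ℕ} (u v : Fin (r + 1) → mw_K) : Fin (r + 1) × Fin (r + 1) → mw_K :=
  fun p => u p.1 * v p.2 - u p.2 * v p.1

/-! ### Absolute heights -/

/-- the number field generated by the coordinates of a tuple -/
def mw_field {ι : Type} (v : ι → mw_K) : IntermediateField ℚ mw_K :=
  IntermediateField.adjoin ℚ (Set.range v)

instance mw_field_finiteDimensional {ι : Type} [Finite ι] (v : ι → mw_K) :
    FiniteDimensional ℚ ↥(mw_field v) :=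
  IntermediateField.finiteDimensional_adjoin (S := Set.range v)
    (fun x _ => ((AlgebraicClosure.isAlgebraic ℚ).isAlgebraic x).isIntegral)

instance mw_field_numberField {ι : Type} [Finite ι] (v : ι → mw_K) : NumberField ↥(mw_field v) where

/-- the normalised logarithmic height of a tuple with coordinates in a number field `K' ≤ Q̄` -/
def mw_htIn (K' : IntermediateField ℚ mw_K) [NumberField ↥K'] {ι : Type} [Finite ι]
    (v : ι → ↥K') : ℝ :=
  Height.logHeight v / (Module.finrank ℚ ↥K' : ℝ)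

/-- **the absolute logarithmic height** of (the projective point represented by) a tuple of
algebraic numbers -/
def mw_ht {ι : Type} [Finite ι] (v : ι → mw_K) : ℝ :=
  mw_htIn (mw_field v)
    (fun i => (⟨v i, IntermediateField.subset_adjoin ℚ _ ⟨i, rfl⟩⟩ : ↥(mw_field v)))

/-- the height of the point `P` in the projective embedding `x` -/
def mw_h {N r : ℕ} (x : Fin (r + 1) → mw_F N) (P : mw_X N) : ℝ := mw_ht (mw_vec x P)

/-- **the diagonal height** `h_Δ(P, Q) = ∑_w -log δ_w(P, Q)` (for `P ≠ Q`) -/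
def mw_hD {N r : ℕ} (x : Fin (r + 1) → mw_F N) (P Q : mw_X N) : ℝ :=
  mw_ht (mw_vec x P) + mw_ht (mw_vec x Q) - mw_ht (mw_wedge (mw_vec x P) (mw_vec x Q))

/-- **the global pairing** `B(D, E) = -∑ nᵢ mⱼ h_Δ(Pᵢ, Qⱼ)` (meaningful for disjoint supports) -/
def mw_B {N r : ℕ} (x : Fin (r + 1) → mw_F N) (D E : mw_Div N) : ℝ :=
  -(D.sum fun P n => E.sum fun Q m => ((n * m : ℤ) : ℝ) * mw_hD x P Q)

/-! ### Local objects at an absolute value of a number field `K' ≤ Q̄` -/

/-- `|z|_w` for `z ∈ K'` (`0` outside `K'`) -/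
def mw_wabs (K' : IntermediateField ℚ mw_K) (w : AbsoluteValue ↥K' ℝ) (z : mw_K) : ℝ :=
  if h : z ∈ K' then w ⟨z, h⟩ else 0

/-- the sup norm `‖v‖_w` -/
def mw_wnorm (K' : IntermediateField ℚ mw_K) (w : AbsoluteValue ↥K' ℝ) {ι : Type} [Fintype ι]
    (v : ι → mw_K) : ℝ :=
  ⨆ i, mw_wabs K' w (v i)

/-- the chordal distance `δ_w(u, v) = ‖u ∧ v‖_w / (‖u‖_w ‖v‖_w)` -/
def mw_delta (K' : IntermediateField ℚ mw_K) (w : AbsoluteValue ↥K' ℝ) {r : ℕ}
    (u v : Fin (r + 1) → mw_K) : ℝ :=
  mw_wnorm K' w (mw_wedge u v) / (mw_wnorm K' w u * mw_wnorm K' w v)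

/-- `bnd` is the admissible error at the place `w` of `K'` for the constants `γ` (archimedean
places) and `c p` (places over `p`): `γ` at an archimedean place, `-c p · log |p|_w`
(`= c p · [K'_w : ℚ_p] · log p`) at a place over `p`. -/
def mw_IsBound (K' : IntermediateField ℚ mw_K) [NumberField ↥K'] (w : AbsoluteValue ↥K' ℝ)
    (γ : ℝ) (c : ℕ → ℝ) (bnd : ℝ) : Prop :=
  (w ∈ Height.AdmissibleAbsValues.archAbsVal (K := ↥K') ∧ bnd = γ) ∨
    (w ∈ Height.AdmissibleAbsValues.nonarchAbsVal (K := ↥K') ∧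
      ∃ p : ℕ, p.Prime ∧ w (p : ↥K') < 1 ∧ bnd = -(c p * Real.log (w (p : ↥K'))))

end Fermat.Agent.MW
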