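/-
Project MW (S17, Mordell–Weil for `J₀(N)`): THE SEAMS OF THE HEIGHT SIDE (prefix `mw_Seam`; helper27).

Every node of the height side of the blueprint (findings #1605, lead briefs #21/#22) is a
`def mw_SeamXX : Prop` here.  `MW/HeightAssembly.lean` proves: the *top* seams below imply
`mw_SeamHeight N` of `MW/SeamsArith.lean` (helper7), which with `mw_SeamWMW N` gives S17
(`mw_S17_of_seams`, `MW/Assembly.lean`).

TOP seams (consumed by `mw_height_of_seams`):
  `mw_SeamREF`   a reference embedding exists (basis of `L(k∞)`, `k ≥ 2g+1`, rational)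
  `mw_SeamINF`   the cusp `∞` is a place
  `mw_SeamBIL`   the global pairing descends to a quasi-biadditive `β` on `J × J`          ⟸ LEI, MOVE
  `mw_SeamAQUAD` abstract: quasi-biadditive ⟹ `a ↦ β a a` satisfies the parallelogram law up to O(1)
  `mw_SeamPOS`   positivity: `β(a-y, a-y) ≥ 2·naive(E_a) - C` for some `y` in a FIXED finite set
                                                              ⟸ EVOFF, EVDIAG, GAUSS, HTSYS, VDM, NONSPEC
  `mw_SeamAPOS`  abstract: quasi-quadratic + POS ⟹ `q ≥ ν - C`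
  `mw_SeamMINREP`, `mw_SeamNAIVELB`, `mw_SeamNORTH`  minimal representatives, their naive height
INNER seams: `mw_SeamABS`, `mw_SeamKL` (THE key lemma, local), `mw_SeamHTSYS` (its global form),
  `mw_SeamLEI`, `mw_SeamMOVE`, `mw_SeamEVOFF`, `mw_SeamEVDIAG`, `mw_SeamGAUSS`, `mw_SeamVDM`,
  `mw_SeamNONSPEC`.
-/
import Fermat.Agent.MW.HeightDefs

set_option autoImplicit false

noncomputable section

namespace Fermat.Agent.MW

open AlgebraicCurve ModularCurve
open scoped Classical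

variable (N : ℕ) [NeZero N]

/-! ### Reference embedding, the cusp `∞` -/

/-- `x` is a **reference embedding**: a `Q̄`-basis, made of functions defined over `ℚ`, of
`L(k·∞)` with `k ≥ 2g + 1`, where `g` is the genus (pinned down by Riemann–Roch in the range
`deg D ≥ k - 2`).  Such an `x` is a projectively normal closed embedding `X₀(N) → ℙ^r`. -/
def mw_IsRef {r : ℕ} (x : Fin (r + 1) → mw_F N) : Prop :=
  (∀ a, mw_IsRat N (x a)) ∧ LinearIndependent mw_K x ∧
    ∃ (Pinf : mw_X N) (k g : ℕ), mw_IsInf N Pinf ∧ 2 * g + 1 ≤ k ∧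
      (∀ D : mw_Div N, (k : ℤ) - 2 ≤ Divisor.degree D →
        (Module.finrank mw_K ↥(riemannRochSpace D) : ℤ) = Divisor.degree D + 1 - g) ∧
      Submodule.span mw_K (Set.range x) = riemannRochSpace (Finsupp.single Pinf (k : ℤ))

/-- [REF] a reference embedding exists -/
def mw_SeamREF : Prop := ∃ (r : ℕ) (x : Fin (r + 1) → mw_F N), mw_IsRef N x

/-- [INF] the cusp `∞` is a place of `mw_F N` -/
def mw_SeamINF : Prop := ∃ P : mw_X N, mw_IsInf N P

/-! ### [ABS] absolute heights -/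

/-- [ABS] the normalised height does not depend on the number field: for every number field
`K' ≤ Q̄` containing the coordinates, `logHeight_{K'} v / [K' : ℚ]` is the absolute height. -/
def mw_SeamABS : Prop :=
  ∀ (K' : IntermediateField ℚ mw_K) [NumberField ↥K'] {ι : Type} [Finite ι] (v : ι → ↥K'),
    mw_htIn K' v = mw_ht (fun i => ((v i : ↥K') : mw_K))

/-! ### [KL] the key lemma: uniform decomposition of a hyperplane section -/

/-- **[KL] (local, uniform).**  Let `x` be a reference embedding and `ψ` a linearly independent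
tuple of functions (a linear system over `Q̄`, `ψ : X → ℙ^s`; it is defined over some number
field, and the constants below absorb the finitely many places of that field over each `p`).  There are constants
`γ ≥ 0` (archimedean places) and `c p ≥ 0` (almost all `0`) such that for every number field
`K' ≤ Q̄`, every place `w` of `K'`, every section `G_cc = ∑ cc_b ψ_b` with coefficients in `K'`
and every point `P` outside its zero divisor `Z_cc` (all points involved `K'`-rational):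
`| log ( |⟨cc, ψ(P)⟩|_w / (‖cc‖_w ‖ψ(P)‖_w) ) - ∑_{z} Z_cc(z) · log δ_w(P, z) | ≤ bound(w)`,
`bound(w) = γ` for `w | ∞` and `= c p · [K'_w : ℚ_p] · log p` for `w | p`.
("The distance from `P` to a hyperplane section is the product of the distances from `P` to its
points", uniformly in the section.) -/
def mw_SeamKL : Prop :=
  ∀ {r : ℕ} (x : Fin (r + 1) → mw_F N), mw_IsRef N x →
  ∀ {s : ℕ} (ψ : Fin (s + 1) → mw_F N), LinearIndependent mw_K ψ →
  ∃ (γ : ℝ) (c : ℕ → ℝ), 0 ≤ γ ∧ (∀ p, 0 ≤ c p) ∧ {p | c p ≠ 0}.Finite ∧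
    ∀ (K' : IntermediateField ℚ mw_K) [NumberField ↥K'] (w : AbsoluteValue ↥K' ℝ) (bnd : ℝ),
      mw_IsBound K' w γ c bnd →
      ∀ (cc : Fin (s + 1) → mw_K) (P : mw_X N), (∀ b, cc b ∈ K') →
        (∀ a, mw_vec x P a ∈ K') → (∀ b, mw_vec ψ P b ∈ K') →
        (∀ z : mw_X N, mw_zeroMult ψ cc z ≠ 0 → ∀ a, mw_vec x z a ∈ K') →
        mw_dot cc (mw_vec ψ P) ≠ 0 →
        |Real.log (mw_wabs K' w (mw_dot cc (mw_vec ψ P)) /
              (mw_wnorm K' w cc * mw_wnorm K' w (mw_vec ψ P)))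
          - ∑ᶠ z : mw_X N, (mw_zeroMult ψ cc z : ℝ) *
              Real.log (mw_delta K' w (mw_vec x P) (mw_vec x z))| ≤ bnd

/-- **[HTSYS] = global [KL]** (sum of [KL] over all places + product formula + [ABS]): the height
of `P` in the linear system `ψ` is the sum of the diagonal heights from `P` to the zeros of any
section not vanishing at `P`, minus the height of the section. -/
def mw_SeamHTSYS : Prop :=
  ∀ {r : ℕ} (x : Fin (r + 1) → mw_F N), mw_IsRef N x →
  ∀ {s : ℕ} (ψ : Fin (s + 1) → mw_F N), LinearIndependent mw_K ψ →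
  ∃ C : ℝ, ∀ (cc : Fin (s + 1) → mw_K) (P : mw_X N), mw_dot cc (mw_vec ψ P) ≠ 0 →
    |(∑ᶠ z : mw_X N, (mw_zeroMult ψ cc z : ℝ) * mw_hD x P z)
      - (mw_ht (mw_vec ψ P) + mw_ht cc)| ≤ C

/-! ### [LEI], [MOVE], [BIL]: the pairing on classes -/

/-- **[LEI]** the global pairing of a degree-zero divisor with a principal divisor is bounded in
terms of the `L¹`-norms only. -/
def mw_SeamLEI : Prop :=
  ∀ {r : ℕ} (x : Fin (r + 1) → mw_F N), mw_IsRef N x → ∀ n : ℕ, ∃ C : ℝ,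
    ∀ (D E : mw_Div N) (f : mw_F N), mw_IsDivOf E f → Divisor.degree D = 0 →
      mw_norm D ≤ n → mw_norm E ≤ n → Disjoint D.support E.support → |mw_B x D E| ≤ C

/-- [MOVE] every class has a representative of bounded norm avoiding a given finite set. -/
def mw_SeamMOVE : Prop :=
  ∃ n₀ : ℕ, ∀ (a : JZero N) (S : Finset (mw_X N)), ∃ D : mw_Div0 N,
    mw_cl D = a ∧ mw_norm D.1 ≤ n₀ ∧ Disjoint D.1.support S

/-- `β` is a pairing on classes computed, up to `O_n(1)`, by the global pairing of any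
representatives of norm `≤ n` with disjoint supports -/
def mw_IsPairing {r : ℕ} (x : Fin (r + 1) → mw_F N) (β : JZero N → JZero N → ℝ) : Prop :=
  ∀ n : ℕ, ∃ C : ℝ, ∀ D E : mw_Div0 N, mw_norm D.1 ≤ n → mw_norm E.1 ≤ n →
    Disjoint D.1.support E.1.support → |β (mw_cl D) (mw_cl E) - mw_B x D.1 E.1| ≤ C

/-- quasi-biadditivity -/
def mw_QuasiBiadd {A : Type} [AddCommGroup A] (β : A → A → ℝ) : Prop :=
  ∃ C : ℝ, ∀ a b c : A,
    |β (a + b) c - β a c - β b c| ≤ C ∧ |β c (a + b) - β c a - β c b| ≤ C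

/-- [BIL] the Néron–Tate-type pairing on `J₀(N)(Q̄)` -/
def mw_SeamBIL : Prop :=
  ∀ {r : ℕ} (x : Fin (r + 1) → mw_F N), mw_IsRef N x →
    ∃ β : JZero N → JZero N → ℝ, mw_IsPairing N x β ∧ mw_QuasiBiadd β ∧
      ∃ C : ℝ, ∀ a b, |β a b - β b a| ≤ C

/-- [AQUAD] (abstract) a quasi-biadditive function gives a quasi-quadratic function -/
def mw_SeamAQUAD : Prop :=
  ∀ (A : Type) [AddCommGroup A] (β : A → A → ℝ), mw_QuasiBiadd β →
    ∃ C : ℝ, ∀ a b : A,
      |β (a + b) (a + b) + β (a - b) (a - b) - 2 * (β a a + β b b)| ≤ C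

/-! ### Minimal representatives and the naive height -/

/-- `E` is the **minimal reduced representative** of the class `a`: effective, `∞ ∉ supp E`,
`l(E) = 1`, and `a = [E - (deg E)·∞]`. -/
def mw_IsMinRep (Pinf : mw_X N) (a : JZero N) (E : mw_Div N) : Prop :=
  0 ≤ E ∧ E Pinf = 0 ∧ Module.finrank mw_K ↥(riemannRochSpace E) = 1 ∧
    ∃ h : E - Finsupp.single Pinf (Divisor.degree E) ∈ Divisor.degZero (K := mw_K) (F := mw_F N),
      mw_cl ⟨E - Finsupp.single Pinf (Divisor.degree E), h⟩ = a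

/-- the naive height of an effective divisor: `∑ E(P) · h_Δ(P, ∞)` -/
def mw_naive {r : ℕ} (x : Fin (r + 1) → mw_F N) (Pinf : mw_X N) (E : mw_Div N) : ℝ :=
  E.sum fun P n => (n : ℝ) * mw_hD x P Pinf

/-- the Abel–Jacobi class `[P - ∞]` -/
def mw_aj (Pinf P : mw_X N) : JZero N :=
  if h : Finsupp.single P (1 : ℤ) - Finsupp.single Pinf (1 : ℤ) ∈
      Divisor.degZero (K := mw_K) (F := mw_F N) then mw_cl ⟨_, h⟩ else 0

/-- [MINREP] every class has a minimal reduced representative -/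
def mw_SeamMINREP : Prop :=
  ∀ Pinf : mw_X N, mw_IsInf N Pinf → ∀ a : JZero N, ∃ E : mw_Div N, mw_IsMinRep N Pinf a E

/-- [NAIVELB] the naive height of minimal representatives is bounded below -/
def mw_SeamNAIVELB : Prop :=
  ∀ {r : ℕ} (x : Fin (r + 1) → mw_F N), mw_IsRef N x → ∀ Pinf : mw_X N, mw_IsInf N Pinf →
    ∃ C : ℝ, ∀ (a : JZero N) (E : mw_Div N), mw_IsMinRep N Pinf a E → -C ≤ mw_naive N x Pinf E

/-- [NORTH] Northcott: finitely many RATIONAL classes have a minimal representative of bounded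
naive height. -/
def mw_SeamNORTH : Prop :=
  ∀ {r : ℕ} (x : Fin (r + 1) → mw_F N), mw_IsRef N x → ∀ Pinf : mw_X N, mw_IsInf N Pinf →
    ∀ B : ℝ, {a : JZero N | a ∈ mw_Gamma N ∧
      ∃ E : mw_Div N, mw_IsMinRep N Pinf a E ∧ mw_naive N x Pinf E ≤ B}.Finite

/-! ### Evaluation of the pairing; positivity -/

/-- [EVOFF] off-diagonal values: `β([P-∞],[Q-∞]) = h₁(P) + h₁(Q) - h_Δ(P,Q) + O(1)`. -/
def mw_SeamEVOFF : Prop :=
  N.Prime → 5 ≤ N → ∀ {r : ℕ} (x : Fin (r + 1) → mw_F N), mw_IsRef N x → ∀ Pinf : mw_X N, mw_IsInf N Pinf →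
  ∀ β : JZero N → JZero N → ℝ, mw_IsPairing N x β → mw_QuasiBiadd β →
    ∃ C : ℝ, ∀ P Q : mw_X N, P ≠ Pinf → Q ≠ Pinf → P ≠ Q →
      |β (mw_aj N Pinf P) (mw_aj N Pinf Q)
        - (mw_hD x P Pinf + mw_hD x Q Pinf - mw_hD x P Q)| ≤ C

/-- [EVDIAG] diagonal values (arithmetic adjunction, pencil form): for `t` defined over `ℚ` with
poles only at `∞` (of order `d`), and `P` unramified for `t`,
`β([P-∞],[P-∞]) = ∑_{z ≠ P, t(z) = t(P)} h_Δ(P, z) - 2 (d - 1) h₁(P) + O(1)`. -/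
def mw_SeamEVDIAG : Prop :=
  N.Prime → 5 ≤ N → ∀ {r : ℕ} (x : Fin (r + 1) → mw_F N), mw_IsRef N x → ∀ Pinf : mw_X N, mw_IsInf N Pinf →
  ∀ β : JZero N → JZero N → ℝ, mw_IsPairing N x β → mw_QuasiBiadd β →
  ∀ t : mw_F N, mw_IsRat N t → (∀ P : mw_X N, P ≠ Pinf → 0 ≤ P.ord t) → Pinf.ord t < 0 →
    ∃ C : ℝ, ∀ P : mw_X N, P ≠ Pinf →
      P.ord (t - algebraMap mw_K (mw_F N) (mw_val P t)) = 1 →
      |β (mw_aj N Pinf P) (mw_aj N Pinf P)
        - ((∑ᶠ z : mw_X N, (if z = P ∨ z = Pinf then (0 : ℝ) else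
              ((z.ord (t - algebraMap mw_K (mw_F N) (mw_val P t)) : ℤ) : ℝ) * mw_hD x P z))
            - 2 * ((-(Pinf.ord t) : ℤ) - 1 : ℝ) * mw_hD x P Pinf)| ≤ C

/-- [GAUSS] the sum of the diagonal heights from `P` to its `t`-conjugates is the height of the
Gauss map (tangent line, Plücker coordinates `x_a x_b' - x_b x_a'`, `' = d/dt`):
`∑_{z ≠ P, t(z) = t(P)} h_Δ(P, z) = h_W(P) - 2 h_x(P) + 2 h(1 : t(P)) + O(1)`. -/
def mw_SeamGAUSS : Prop :=
  ∀ {r : ℕ} (x : Fin (r + 1) → mw_F N), mw_IsRef N x → ∀ Pinf : mw_X N, mw_IsInf N Pinf →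
  ∀ t : mw_F N, mw_IsRat N t → (∀ P : mw_X N, P ≠ Pinf → 0 ≤ P.ord t) → Pinf.ord t < 0 →
  ∀ (D : Derivation mw_K (mw_F N) (mw_F N)), D t = 1 →
  ∀ (m : ℕ) (W : Fin (m + 1) → mw_F N),
    (∀ i, ∃ a b, W i = x a * D (x b) - x b * D (x a)) →
    (∀ a b, ∃ i, W i = x a * D (x b) - x b * D (x a)) →
    ∃ C : ℝ, ∀ P : mw_X N, P ≠ Pinf →
      P.ord (t - algebraMap mw_K (mw_F N) (mw_val P t)) = 1 →
      |(∑ᶠ z : mw_X N, (if z = P ∨ z = Pinf then (0 : ℝ) else
            ((z.ord (t - algebraMap mw_K (mw_F N) (mw_val P t)) : ℤ) : ℝ) * mw_hD x P z))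
        - (mw_ht (mw_vec W P) - 2 * mw_ht (mw_vec x P) + 2 * mw_ht ![1, mw_val P t])| ≤ C

/-- **[VDM] arithmetic Vandermonde**: for a linear system `ψ` of dimension `k + 1` and `k + 1`
distinct points with `det (ψ_a(P_j)) ≠ 0`:
`∑_{i<j} h_Δ(P_i, P_j) ≤ ∑_j h_ψ(P_j) + C`. -/
def mw_SeamVDM : Prop :=
  ∀ {r : ℕ} (x : Fin (r + 1) → mw_F N), mw_IsRef N x →
  ∀ {k : ℕ} (ψ : Fin (k + 1) → mw_F N), LinearIndependent mw_K ψ →
  ∃ C : ℝ, ∀ Pts : Fin (k + 1) → mw_X N, Function.Injective Pts →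
    (Matrix.of fun a j => mw_vec ψ (Pts j) a).det ≠ 0 →
    (∑ i, ∑ j, if i < j then mw_hD x (Pts i) (Pts j) else 0)
      ≤ (∑ j, mw_ht (mw_vec ψ (Pts j))) + C

/-- [NONSPEC] (Wronskian / general position) there is a FINITE family of linear systems, each
cut out of the canonical system by vanishing at an auxiliary point, such that every minimal
reduced divisor imposes independent conditions on one of them: for every `E = P₀ + ⋯ + P_k`
(distinct points) with `l(E) = 1` some member `ψ` of the family (of dimension `k + 1`) has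
`det (ψ_a(P_j)) ≠ 0`. -/
def mw_SeamNONSPEC : Prop :=
  ∀ k : ℕ, ∃ (Fam : Finset (Fin (k + 1) → mw_F N)),
    (∀ ψ ∈ Fam, LinearIndependent mw_K ψ) ∧
    ∀ Pts : Fin (k + 1) → mw_X N, Function.Injective Pts →
      Module.finrank mw_K
        ↥(riemannRochSpace (∑ j, Finsupp.single (Pts j) (1 : ℤ) : mw_Div N)) = 1 →
      ∃ ψ ∈ Fam, (Matrix.of fun a j => mw_vec ψ (Pts j) a).det ≠ 0

/-- **[POS] positivity** (corrected form of #1605 (4)): there is a FIXED finite set `Y` of classes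
such that for the minimal reduced representative `E` of any class `a`,
`β(a - y, a - y) ≥ 2 · naive(E) - C` for some `y ∈ Y`. -/
def mw_SeamPOS : Prop :=
  N.Prime → 5 ≤ N → ∀ {r : ℕ} (x : Fin (r + 1) → mw_F N), mw_IsRef N x → ∀ Pinf : mw_X N, mw_IsInf N Pinf →
  ∀ β : JZero N → JZero N → ℝ, mw_IsPairing N x β → mw_QuasiBiadd β →
    ∃ (Y : Finset (JZero N)) (C : ℝ), ∀ (a : JZero N) (E : mw_Div N), mw_IsMinRep N Pinf a E →
      ∃ y ∈ Y, 2 * mw_naive N x Pinf E - C ≤ β (a - y) (a - y)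

/-- [APOS] (abstract) a quasi-quadratic function which dominates `2ν - C` after a translation
from a fixed finite set dominates `ν - C'`. -/
def mw_SeamAPOS : Prop :=
  ∀ (A : Type) [AddCommGroup A] (q ν : A → ℝ) (Y : Finset A) (C : ℝ),
    (∃ C' : ℝ, ∀ a b : A, |q (a + b) + q (a - b) - 2 * (q a + q b)| ≤ C') →
    (∀ a, 0 ≤ ν a) → (∀ a, ∃ y ∈ Y, 2 * ν a - C ≤ q (a - y)) →
    ∃ C'' : ℝ, ∀ a, ν a - C'' ≤ q a

end Fermat.Agent.MW
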