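/-
Project MW (S17), height side, leaf **[INF]** (architect helper7 #1823, seams helper27):
`mw_inf : mw_SeamINF N` — the `q`-adic valuation ring of `F̄_N ⊂ Q̄((q))` is a place (the cusp `∞`).
Also `mw_inf_ord`: for such a place the order function is the `q`-order.  Prefix `mw_inf_`.
-/
import Fermat.Agent.MW.SeamsHeight
import Fermat.Agent.JT3.Gateway.ValPlace
import Fermat.Agent.S24.Bridge.Degree

set_option autoImplicit false
set_option linter.unusedSectionVars false

noncomputable section

namespace Fermat.Agent.MW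

open AlgebraicCurve ModularCurve Fermat.Agent.JT3 Fermat.Agent.S24

variable (N : ℕ) [NeZero N]

/-- the `q`-order on `F̄_N` -/
def mw_inf_val (f : mw_F N) : ℤ := (f : LaurentSeries mw_K).order

theorem mw_inf_isVal : gw_IsVal mw_K (mw_inf_val N) where
  map_mul f g hf hg := by
    have hf' : (f : LaurentSeries mw_K) ≠ 0 := fun h => hf (Subtype.ext h)
    have hg' : (g : LaurentSeries mw_K) ≠ 0 := fun h => hg (Subtype.ext h)
    exact HahnSeries.order_mul hf' hg'
  map_add f g _ _ hfg := by
    have hfg' : (f : LaurentSeries mw_K) + (g : LaurentSeries mw_K) ≠ 0 :=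
      fun h => hfg (Subtype.ext h)
    exact HahnSeries.min_order_le_order_add hfg'
  map_const c hc := by
    show (algebraMap mw_K (LaurentSeries mw_K) c).order = 0
    rw [algebraMap_laurentSeries_eq_single]
    exact HahnSeries.order_single hc

theorem mw_inf_j_order_le : (br_jqK).order ≤ -1 := by
  apply HahnSeries.order_le_of_coeff_ne_zero
  have h := br_coeff_jqK_pow_self 1
  rw [pow_one] at h
  have h' : br_jqK.coeff (-1) = 1 := by simpa using h
  rw [h']
  exact one_ne_zero

theorem mw_inf_nontrivial : ∃ f : mw_F N, f ≠ 0 ∧ mw_inf_val N f ≠ 0 := by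
  have hle := mw_inf_j_order_le
  refine ⟨br_jBar N, ?_, ?_⟩
  · intro h
    have h' : br_jqK = 0 := by
      have := congrArg (fun z : mw_F N => (z : LaurentSeries mw_K)) h
      simpa [coe_br_jBar] using this
    rw [h', HahnSeries.order_zero] at hle
    omega
  · show (br_jqK).order ≠ 0
    omega

/-- the cusp `∞` as a place of `F̄_N` -/
def mw_inf_place : mw_X N := (mw_inf_isVal N).place (mw_inf_nontrivial N)

theorem mw_inf_isInf : mw_IsInf N (mw_inf_place N) := by
  intro f
  rw [mw_inf_place, gw_IsVal.place_toValuationSubring]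
  exact Iff.rfl

/-- **[INF]** the cusp `∞` is a place of `F̄_N`. -/
theorem mw_inf : mw_SeamINF N := ⟨mw_inf_place N, mw_inf_isInf N⟩

theorem mw_inf_j_order : (br_jqK).order = -1 := by
  apply le_antisymm mw_inf_j_order_le
  by_contra hlt
  push Not at hlt
  have hne : br_jqK ≠ 0 := by
    intro h
    have hle := mw_inf_j_order_le
    rw [h, HahnSeries.order_zero] at hle
    omega
  have h2 := br_coeff_jqK_pow_of_lt (n := 1) (m := br_jqK.order) (by simpa using hlt)
  rw [pow_one] at h2
  exact hne (HahnSeries.coeff_order_eq_zero.1 h2)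

/-- the cusp `∞` is unique -/
theorem mw_inf_unique (P : mw_X N) (hP : mw_IsInf N P) : P = mw_inf_place N := by
  apply Place.ext
  ext f
  rw [hP f, mw_inf_isInf N f]

/-- the order function of the cusp `∞` is the `q`-order. -/
theorem mw_inf_ord (P : mw_X N) (hP : mw_IsInf N P) (f : mw_F N) (hf : f ≠ 0) :
    P.ord f = (f : LaurentSeries mw_K).order := by
  have hv := mw_inf_isVal N
  have hmem : ∀ g : mw_F N, g ≠ 0 → (g ∈ P.toValuationSubring ↔ 0 ≤ mw_inf_val N g) := by
    intro g hg
    rw [hP g]
    exact or_iff_right hg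
  obtain ⟨π, hπ⟩ := IsDiscreteValuationRing.exists_irreducible P.toValuationSubring
  have hπ0 : (π : mw_F N) ≠ 0 := fun h => hπ.ne_zero (Subtype.ext h)
  have hunit : ∀ u : (P.toValuationSubring)ˣ,
      mw_inf_val N ((u : P.toValuationSubring) : mw_F N) = 0 := by
    intro u
    have hu0 : ((u : P.toValuationSubring) : mw_F N) ≠ 0 := fun h => u.ne_zero (Subtype.ext h)
    have h1 := (hmem _ hu0).1 (u : P.toValuationSubring).2
    have hinv : ((u : P.toValuationSubring) : mw_F N)⁻¹ ∈ P.toValuationSubring := by
      have h := ((u⁻¹ : (P.toValuationSubring)ˣ) : P.toValuationSubring).2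
      have e : (((u⁻¹ : (P.toValuationSubring)ˣ) : P.toValuationSubring) : mw_F N)
          = ((u : P.toValuationSubring) : mw_F N)⁻¹ := by
        apply eq_inv_of_mul_eq_one_left
        have h3 : ((u⁻¹ : (P.toValuationSubring)ˣ) : P.toValuationSubring) *
            (u : P.toValuationSubring) = 1 := Units.inv_mul u
        have h4 := congrArg (fun z : P.toValuationSubring => (z : mw_F N)) h3
        exact h4
      rwa [e] at h
    have h2 := (hmem _ (inv_ne_zero hu0)).1 hinv
    rw [hv.map_inv hu0] at h2
    omega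
  have hform : ∀ g : mw_F N, g ≠ 0 → mw_inf_val N g = P.ord g * mw_inf_val N (π : mw_F N) := by
    intro g hg
    obtain ⟨u, hu⟩ := P.exists_unit_mul_zpow hg hπ
    have hu0 : ((u : P.toValuationSubring) : mw_F N) ≠ 0 := fun h => u.ne_zero (Subtype.ext h)
    conv_lhs => rw [hu]
    rw [hv.map_mul _ _ hu0 (zpow_ne_zero _ hπ0), hv.map_zpow hπ0, hunit u, zero_add]
  have he0 : 0 ≤ mw_inf_val N (π : mw_F N) := (hmem _ hπ0).1 π.2
  have hj0 : br_jBar N ≠ 0 := (mw_inf_nontrivial N).choose_spec.1 |> fun _ => by
    intro h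
    have h' : br_jqK = 0 := by
      have := congrArg (fun z : mw_F N => (z : LaurentSeries mw_K)) h
      simpa [coe_br_jBar] using this
    have := mw_inf_j_order
    rw [h', HahnSeries.order_zero] at this
    omega
  have hj := hform (br_jBar N) hj0
  have hjv : mw_inf_val N (br_jBar N) = -1 := mw_inf_j_order
  rw [hjv] at hj
  have he1 : mw_inf_val N (π : mw_F N) = 1 := by
    have hdvd : mw_inf_val N (π : mw_F N) ∣ 1 := ⟨-P.ord (br_jBar N), by linarith⟩
    exact Int.eq_one_of_dvd_one he0 hdvd
  have := hform f hf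
  rw [he1, mul_one] at this
  exact this.symm

end Fermat.Agent.MW
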