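/-
Project MW (S17), height side, leaf **[REF]** (helper29; seam `mw_SeamREF` of `MW/SeamsHeight.lean`):
a reference embedding exists.  Prefix `mw_ref_`.

`(g, c)` from Riemann's theorem (`rt_riemann_fbar`), `k := 2g + 1 + (c⁺ + 2)`, `∞ := mw_inf_place N`.
The space `L(k∞)` is stable under the coefficientwise action of `Aut(Q̄/ℚ)` (which permutes the
places and fixes `∞`).  Every `y ∈ F̄` is `∑_{m<d} θ^m · bc(y_m)` with `y_m` rational, `d` the degree
of `θ`; applying the automorphisms `σ_j θ = θ_j` (`θ_j` the `d` conjugates) and inverting the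
Vandermonde matrix, the `bc(y_m)` lie in `L(k∞)` for `y ∈ L(k∞)`.  So the rational elements of
`L(k∞)` span it, and a basis is extracted (`MW/Ref/Lin.lean`).
-/
import Fermat.Agent.MW.Ref.Lin
import Fermat.Agent.MW.Inf
import Fermat.Agent.JT3.Riemann.FBar
import Fermat.Agent.JT3.Descent.FieldOfDef
import Fermat.Agent.JT3.Gateway.DescentField

set_option autoImplicit false
set_option linter.unusedSectionVars false
set_option linter.style.haveILetI false

noncomputable section

namespace Fermat.Agent.MW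

open AlgebraicCurve ModularCurve Fermat.Agent.JT3 Fermat.Agent.S24 Polynomial

variable (N : ℕ) [NeZero N]

/-- the coefficientwise Galois action on `F̄_N` -/
abbrev mw_ref_gal (σ : mw_K ≃ₐ[ℚ] mw_K) : SemilinearAut mw_K (mw_F N) :=
  arithmeticGalois (modularFunctionFieldFull N) σ

/-! ### The Galois action fixes `∞` and preserves `L(k∞)` -/

theorem mw_ref_coe_smul (σ : mw_K ≃ₐ[ℚ] mw_K) (f : mw_F N) :
    ((mw_ref_gal N σ • f : mw_F N) : LaurentSeries mw_K)
      = coeffMap (σ : mw_K →+* mw_K) (f : LaurentSeries mw_K) := rfl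

theorem mw_ref_order_smul (σ : mw_K ≃ₐ[ℚ] mw_K) (f : mw_F N) :
    ((mw_ref_gal N σ • f : mw_F N) : LaurentSeries mw_K).order
      = (f : LaurentSeries mw_K).order := by
  rw [mw_ref_coe_smul]
  exact gd_order_coeffMap (φ := (σ : mw_K →+* mw_K)) σ.injective _

theorem mw_ref_smul_inf (σ : mw_K ≃ₐ[ℚ] mw_K) (P : mw_X N) (hP : mw_IsInf N P) :
    mw_ref_gal N σ • P = P := by
  have h1 : mw_IsInf N (mw_ref_gal N σ • P) := by
    intro f
    rw [SemilinearAut.smul_toValuationSubring,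
      ValuationSubring.mem_pointwise_smul_iff_inv_smul_mem, hP]
    have h2 : ((mw_ref_gal N σ)⁻¹ • f : mw_F N) = 0 ↔ f = 0 := smul_eq_zero_iff_eq _
    have h3 : (((mw_ref_gal N σ)⁻¹ • f : mw_F N) : LaurentSeries mw_K).order
        = (f : LaurentSeries mw_K).order := by
      have := mw_ref_order_smul N σ ((mw_ref_gal N σ)⁻¹ • f)
      rw [smul_inv_smul] at this
      exact this.symm
    rw [h2, h3]
  rw [mw_inf_unique N _ h1, mw_inf_unique N P hP]

theorem mw_ref_smul_mem_L (σ : mw_K ≃ₐ[ℚ] mw_K) (P : mw_X N) (hP : mw_IsInf N P) (k : ℤ)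
    {f : mw_F N} (hf : f ∈ riemannRochSpace (Finsupp.single P k : mw_Div N)) :
    mw_ref_gal N σ • f ∈ riemannRochSpace (Finsupp.single P k : mw_Div N) := by
  rw [mem_riemannRochSpace_iff] at hf ⊢
  intro v
  rcases hf ((mw_ref_gal N σ)⁻¹ • v) with h0 | h1
  · left
    rw [h0, smul_zero]
  · right
    have hord : v.ord (mw_ref_gal N σ • f) = ((mw_ref_gal N σ)⁻¹ • v).ord f := by
      have := SemilinearAut.ord_smul (mw_ref_gal N σ) ((mw_ref_gal N σ)⁻¹ • v) f
      rwa [smul_inv_smul] at this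
    have hD : (Finsupp.single P k : mw_Div N) ((mw_ref_gal N σ)⁻¹ • v)
        = (Finsupp.single P k : mw_Div N) v := by
      by_cases hv : v = P
      · have : (mw_ref_gal N σ)⁻¹ • v = v := by
          rw [inv_smul_eq_iff, hv, mw_ref_smul_inf N σ P hP]
        rw [this]
      · have hne : (mw_ref_gal N σ)⁻¹ • v ≠ P := by
          intro h
          apply hv
          rw [inv_smul_eq_iff] at h
          rw [h, mw_ref_smul_inf N σ P hP]
        rw [Finsupp.single_eq_of_ne hne, Finsupp.single_eq_of_ne hv]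
    rw [hord, ← hD]
    exact h1

/-! ### Rational elements -/

theorem mw_ref_bc_rat (F₀ : IntermediateField ℚ (LaurentSeries ℚ)) :
    laurentBaseChange ℚ F₀ = F₀ := by
  have h1 : ∀ x : LaurentSeries ℚ, coeffEmb ℚ x = x := fun x => by
    rw [coeffEmb, coeffMap_congr (Subsingleton.elim (algebraMap ℚ ℚ) (RingHom.id ℚ)), coeffMap_id]
  have h2 : (⇑(coeffEmb ℚ) '' (F₀ : Set (LaurentSeries ℚ))) = (F₀ : Set (LaurentSeries ℚ)) := by
    ext x
    constructor
    · rintro ⟨y, hy, rfl⟩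
      rw [h1]
      exact hy
    · intro hx
      exact ⟨x, hx, h1 x⟩
  rw [laurentBaseChange, h2, IntermediateField.adjoin_self]

/-- the rational function field `F_ℚ`, as `laurentBaseChange ℚ F₀` -/
abbrev mw_ref_A : Type := ↥(laurentBaseChange ℚ (modularFunctionFieldFull N))

/-- the comparison map `F_ℚ → F̄` -/
abbrev mw_ref_bc : mw_ref_A N →+* mw_F N := dsc_bcHom ℚ mw_K (modularFunctionFieldFull N)

theorem mw_ref_isRat_bc (a : mw_ref_A N) : mw_IsRat N (mw_ref_bc N a) := by
  refine ⟨(a : LaurentSeries ℚ), ?_, ?_⟩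
  · have h : ∀ z : LaurentSeries ℚ, z ∈ laurentBaseChange ℚ (modularFunctionFieldFull N) →
        z ∈ modularFunctionFieldFull N := fun z hz => by
      rw [mw_ref_bc_rat] at hz
      exact hz
    exact h _ a.2
  · rfl

theorem mw_ref_smul_bc (σ : mw_K ≃ₐ[ℚ] mw_K) (a : mw_ref_A N) :
    mw_ref_gal N σ • mw_ref_bc N a = mw_ref_bc N a := by
  apply Subtype.ext
  rw [mw_ref_coe_smul]
  exact coeffMap_coeffEmb σ (a : LaurentSeries ℚ)

theorem mw_ref_smul_const (σ : mw_K ≃ₐ[ℚ] mw_K) (θ : mw_K) :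
    mw_ref_gal N σ • algebraMap mw_K (mw_F N) θ = algebraMap mw_K (mw_F N) (σ θ) := by
  rw [SemilinearAut.smul_algebraMap]
  rfl

/-! ### Every element is a polynomial in a constant with rational coefficients -/

attribute [local instance] dsc_bcAlgebra

theorem mw_ref_repr (y : mw_F N) : ∃ (θ : mw_K) (c : ℕ → mw_ref_A N),
    y = ∑ m ∈ Finset.range (minpoly ℚ θ).natDegree,
      mw_ref_bc N (c m) * algebraMap mw_K (mw_F N) θ ^ m := by
  haveI : Algebra.IsAlgebraic ℚ mw_K := AlgebraicClosure.isAlgebraic ℚ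
  obtain ⟨θ, hθ⟩ := dsc_bc_hgen ℚ mw_K (modularFunctionFieldFull N) y
  refine ⟨θ, ?_⟩
  have hθint : IsIntegral ℚ θ := Algebra.IsIntegral.isIntegral θ
  have hμmonic : ((minpoly ℚ θ).map (algebraMap ℚ (mw_ref_A N))).Monic :=
    (minpoly.monic hθint).map _
  have hμroot : aeval (algebraMap mw_K (mw_F N) θ)
      ((minpoly ℚ θ).map (algebraMap ℚ (mw_ref_A N))) = 0 := by
    rw [aeval_def, eval₂_map]
    have : (algebraMap (mw_ref_A N) (mw_F N)).comp (algebraMap ℚ (mw_ref_A N))
        = (algebraMap mw_K (mw_F N)).comp (algebraMap ℚ mw_K) := Subsingleton.elim _ _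
    rw [this, ← hom_eval₂, ← aeval_def, minpoly.aeval, map_zero]
  have hαint : IsIntegral (mw_ref_A N) (algebraMap mw_K (mw_F N) θ) :=
    ⟨_, hμmonic, by rwa [aeval_def] at hμroot⟩
  have hy : y ∈ Algebra.adjoin (mw_ref_A N) {algebraMap mw_K (mw_F N) θ} := by
    rw [← IntermediateField.adjoin_simple_toSubalgebra_of_isAlgebraic hαint.isAlgebraic]
    exact hθ
  rw [Algebra.adjoin_singleton_eq_range_aeval] at hy
  obtain ⟨p, rfl⟩ := hy
  refine ⟨fun m => (p %ₘ (minpoly ℚ θ).map (algebraMap ℚ (mw_ref_A N))).coeff m, ?_⟩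
  have hne1 : (minpoly ℚ θ).map (algebraMap ℚ (mw_ref_A N)) ≠ 1 := by
    intro h
    have h1 := congrArg natDegree h
    rw [natDegree_map, natDegree_one] at h1
    exact (minpoly.natDegree_pos hθint).ne' h1
  have hdeg : (p %ₘ (minpoly ℚ θ).map (algebraMap ℚ (mw_ref_A N))).natDegree
      < (minpoly ℚ θ).natDegree := by
    have := natDegree_modByMonic_lt p hμmonic hne1
    rwa [natDegree_map] at this
  show aeval (algebraMap mw_K (mw_F N) θ) p = _
  rw [← aeval_modByMonic_eq_self_of_root hμroot, aeval_eq_sum_range' hdeg]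
  refine Finset.sum_congr rfl fun m _ => ?_
  rw [Algebra.smul_def]
  rfl

/-! ### Conjugates -/

theorem mw_ref_exists_conj (θ : mw_K) :
    ∃ t : Fin (minpoly ℚ θ).natDegree → mw_K, Function.Injective t ∧
      ∀ j, ∃ σ : mw_K ≃ₐ[ℚ] mw_K, σ θ = t j := by
  haveI : Algebra.IsAlgebraic ℚ mw_K := AlgebraicClosure.isAlgebraic ℚ
  haveI : IsAlgClosure ℚ mw_K := ⟨inferInstance, AlgebraicClosure.isAlgebraic ℚ⟩
  haveI : Normal ℚ mw_K := IsAlgClosure.normal ℚ mw_K
  have hθint : IsIntegral ℚ θ := Algebra.IsIntegral.isIntegral θ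
  have hsep : (minpoly ℚ θ).Separable := (minpoly.irreducible hθint).separable
  have hcard : Fintype.card ((minpoly ℚ θ).rootSet mw_K) = (minpoly ℚ θ).natDegree :=
    card_rootSet_eq_natDegree hsep (IsAlgClosed.splits _)
  let e : Fin (minpoly ℚ θ).natDegree ≃ (minpoly ℚ θ).rootSet mw_K :=
    (Fintype.equivFinOfCardEq hcard).symm
  refine ⟨fun j => (e j : mw_K), fun i j h => e.injective (Subtype.ext h), fun j => ?_⟩
  have hroot : aeval (e j : mw_K) (minpoly ℚ θ) = 0 := (mem_rootSet.mp (e j).2).2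
  have hconj : IsConjRoot ℚ θ (e j : mw_K) := isConjRoot_of_aeval_eq_zero hθint hroot
  exact isConjRoot_iff_exists_algEquiv.mp hconj.symm

/-! ### The rational elements of `L(k∞)` span it -/

theorem mw_ref_span_rat (P : mw_X N) (hP : mw_IsInf N P) (k : ℤ) :
    Submodule.span mw_K {f : mw_F N |
        f ∈ riemannRochSpace (Finsupp.single P k : mw_Div N) ∧ mw_IsRat N f}
      = riemannRochSpace (Finsupp.single P k : mw_Div N) := by
  apply le_antisymm
  · rw [Submodule.span_le]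
    exact fun f hf => hf.1
  · intro y hy
    obtain ⟨θ, c, hyc⟩ := mw_ref_repr N y
    obtain ⟨t, htinj, ht⟩ := mw_ref_exists_conj θ
    have hz : ∀ m : Fin (minpoly ℚ θ).natDegree, mw_ref_bc N (c m)
        ∈ riemannRochSpace (Finsupp.single P k : mw_Div N) := by
      apply mw_ref_mem_of_vandermonde t htinj _ (fun m => mw_ref_bc N (c m))
      intro j
      obtain ⟨σ, hσ⟩ := ht j
      have hsm : ∑ m : Fin (minpoly ℚ θ).natDegree, t j ^ (m : ℕ) • mw_ref_bc N (c m)
          = mw_ref_gal N σ • y := by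
        rw [hyc, Finset.smul_sum, Finset.sum_range]
        refine Finset.sum_congr rfl fun m _ => ?_
        rw [smul_mul', smul_pow', mw_ref_smul_bc, mw_ref_smul_const, Algebra.smul_def, map_pow,
          hσ, mul_comm]
      rw [hsm]
      exact mw_ref_smul_mem_L N σ P hP k hy
    rw [hyc, Finset.sum_range]
    refine Submodule.sum_mem _ fun m _ => ?_
    have hmul : mw_ref_bc N (c m) * algebraMap mw_K (mw_F N) θ ^ (m : ℕ)
        = θ ^ (m : ℕ) • mw_ref_bc N (c m) := by
      rw [Algebra.smul_def, map_pow, mul_comm]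
    rw [hmul]
    exact Submodule.smul_mem _ _ (Submodule.subset_span ⟨hz m, mw_ref_isRat_bc N (c m)⟩)

/-! ### The seam -/

/-- **[REF]** a reference embedding exists. -/
theorem mw_ref : mw_SeamREF N := by
  obtain ⟨g, c, hgc⟩ := rt_riemann_fbar N
  have hP := mw_inf_isInf N
  have hfin : Module.Finite mw_K
      ↥(riemannRochSpace (Finsupp.single (mw_inf_place N)
        ((2 * g + 1 + (c.toNat + 2) : ℕ) : ℤ) : mw_Div N)) := (hgc _).1
  have hex : ∀ D : mw_Div N, ((2 * g + 1 + (c.toNat + 2) : ℕ) : ℤ) - 2 ≤ Divisor.degree D →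
      (Module.finrank mw_K ↥(riemannRochSpace D) : ℤ) = Divisor.degree D + 1 - g :=
    fun D hD => (hgc D).2 (by have := Int.self_le_toNat c; omega)
  have hdeg : Divisor.degree (Finsupp.single (mw_inf_place N)
      ((2 * g + 1 + (c.toNat + 2) : ℕ) : ℤ) : mw_Div N) = ((2 * g + 1 + (c.toNat + 2) : ℕ) : ℤ) :=
    rt_degree_single (rt_isSepGen_jBar N) _ _
  have hrank := hex _ (by rw [hdeg]; omega)
  rw [hdeg] at hrank
  obtain ⟨r, hr⟩ : ∃ r : ℕ, Module.finrank mw_K
      ↥(riemannRochSpace (Finsupp.single (mw_inf_place N)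
        ((2 * g + 1 + (c.toNat + 2) : ℕ) : ℤ) : mw_Div N)) = r + 1 :=
    ⟨Module.finrank mw_K ↥(riemannRochSpace (Finsupp.single (mw_inf_place N)
        ((2 * g + 1 + (c.toNat + 2) : ℕ) : ℤ) : mw_Div N)) - 1, by omega⟩
  obtain ⟨x, hxS, hxli, hxspan⟩ := mw_ref_exists_basis _ _
    (mw_ref_span_rat N (mw_inf_place N) hP ((2 * g + 1 + (c.toNat + 2) : ℕ) : ℤ)) hr
  exact ⟨r, x, fun a => (hxS a).2, hxli, mw_inf_place N, 2 * g + 1 + (c.toNat + 2), g, hP,
    by omega, hex, hxspan⟩

end Fermat.Agent.MW
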