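/-
Project MW (S17), leaf [ABS]: the normalised logarithmic height does not depend on the number field.

* `mw_ah_mulHeight` : for number fields `K ⊆ L` and a finite tuple `x` over `K`,
  `mulHeight (algebraMap K L ∘ x) = mulHeight x ^ [L : K]`;
* `mw_ah_seamABS : mw_SeamABS`.

Archimedean part: `∏_w G(w)^{mult w} = ∏_{φ : K → ℂ} G(mk φ)` and every embedding of `K` has exactly
`[L : K]` extensions to `L`.  Finite part: for an integral tuple the finite part of the height is
the inverse of the absolute norm of the ideal it generates (Mathlib), and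
`N(I 𝓞_L) = N(I)^{[L : K]}` (`Ideal.absNorm_algebraMap`).
-/
import Fermat.Agent.MW.SeamsHeight

set_option autoImplicit false

open NumberField Height Module

namespace Fermat.Agent.MW

section emb

variable {K L : Type*} [Field K] [NumberField K] [Field L] [NumberField L] [Algebra K L]

open Classical in
/-- the complex embeddings of `L` above a given embedding `ψ` of `K` are `[L : K]` in number -/
theorem mw_ah_card_fiber (ψ : K →+* ℂ) :
    (Finset.univ.filter fun φ : L →+* ℂ => φ.comp (algebraMap K L) = ψ).card = finrank K L := by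
  let _ : Algebra K ℂ := ψ.toAlgebra
  have h1 : Fintype.card (L →ₐ[K] ℂ) = finrank K L := AlgHom.card K L ℂ
  rw [← h1, ← Fintype.card_subtype]
  refine Fintype.card_congr ?_
  refine
    { toFun := fun φ => ⟨φ.1, fun r => RingHom.congr_fun φ.2 r⟩
      invFun := fun f => ⟨f.toRingHom, RingHom.ext fun r => f.commutes r⟩
      left_inv := fun φ => by ext; rfl
      right_inv := fun f => by ext; rfl }

open Classical in
theorem mw_ah_prod_emb (g : (K →+* ℂ) → ℝ) :
    ∏ φ : L →+* ℂ, g (φ.comp (algebraMap K L)) = ∏ ψ : K →+* ℂ, g ψ ^ finrank K L := by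
  rw [← Finset.prod_fiberwise Finset.univ (fun φ : L →+* ℂ => φ.comp (algebraMap K L))
    (fun φ => g (φ.comp (algebraMap K L)))]
  refine Finset.prod_congr rfl fun ψ _ => ?_
  rw [Finset.prod_congr rfl (fun φ hφ => by rw [(Finset.mem_filter.mp hφ).2]),
    Finset.prod_const, mw_ah_card_fiber]

end emb

open Classical in
theorem mw_ah_prod_places {K : Type*} [Field K] [NumberField K] (G : InfinitePlace K → ℝ) :
    ∏ w : InfinitePlace K, G w ^ w.mult = ∏ φ : K →+* ℂ, G (InfinitePlace.mk φ) := by
  rw [← Finset.prod_fiberwise Finset.univ InfinitePlace.mk (fun φ => G (InfinitePlace.mk φ))]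
  refine Finset.prod_congr rfl fun w _ => ?_
  rw [Finset.prod_congr rfl (fun φ hφ => by rw [(Finset.mem_filter.mp hφ).2]),
    Finset.prod_const, InfinitePlace.card_filter_mk_eq]

variable {K L : Type*} [Field K] [NumberField K] [Field L] [NumberField L] [Algebra K L]

theorem mw_ah_arch {ι : Type*} (x : ι → K) :
    ∏ w : InfinitePlace L, (⨆ i, w (algebraMap K L (x i))) ^ w.mult =
      (∏ w : InfinitePlace K, (⨆ i, w (x i)) ^ w.mult) ^ finrank K L := by
  rw [mw_ah_prod_places (fun w : InfinitePlace L => ⨆ i, w (algebraMap K L (x i))),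
    mw_ah_prod_places (fun w : InfinitePlace K => ⨆ i, w (x i)), ← Finset.prod_pow,
    ← mw_ah_prod_emb (L := L) (fun ψ : K →+* ℂ => ⨆ i, InfinitePlace.mk ψ (x i))]
  refine Finset.prod_congr rfl fun φ _ => ?_
  simp only [InfinitePlace.apply, RingHom.comp_apply]

/-- the ideal generated by a tuple of integers, after extension of the number field -/
theorem mw_ah_fin {ι : Type*} [Finite ι] (a : ι → 𝓞 K) (ha : a ≠ 0) :
    (∏ᶠ v : FinitePlace L, ⨆ i, v ((algebraMap (𝓞 K) (𝓞 L) (a i) : 𝓞 L) : L)) =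
      (∏ᶠ v : FinitePlace K, ⨆ i, v ((a i : 𝓞 K) : K)) ^ finrank K L := by
  have hinj : Function.Injective (algebraMap (𝓞 K) (𝓞 L)) :=
    FaithfulSMul.algebraMap_injective (𝓞 K) (𝓞 L)
  have ha' : (fun i => algebraMap (𝓞 K) (𝓞 L) (a i)) ≠ 0 := by
    intro h
    apply ha
    funext i
    have := congrFun h i
    simp only [Pi.zero_apply] at this ⊢
    exact hinj (by rw [this, map_zero])
  have h1 := absNorm_mul_finprod_finitePlace_eq_one (K := K) (x := a) ha
  have h2 := absNorm_mul_finprod_finitePlace_eq_one (K := L)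
    (x := fun i => algebraMap (𝓞 K) (𝓞 L) (a i)) ha'
  have hspan : Ideal.span (Set.range fun i => algebraMap (𝓞 K) (𝓞 L) (a i)) =
      (Ideal.span (Set.range a)).map (algebraMap (𝓞 K) (𝓞 L)) := by
    rw [Ideal.map_span, ← Set.range_comp]
    rfl
  have hnorm : Ideal.absNorm ((Ideal.span (Set.range a)).map (algebraMap (𝓞 K) (𝓞 L))) =
      Ideal.absNorm (Ideal.span (Set.range a)) ^ finrank K L := by
    rw [Ideal.absNorm_algebraMap, IsFractionRing.finrank_eq (𝓞 K) K (𝓞 L) L]
  rw [hspan, hnorm] at h2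
  set N : ℝ := ((Ideal.absNorm (Ideal.span (Set.range a)) : ℕ) : ℝ) with hN
  set P := ∏ᶠ v : FinitePlace K, ⨆ i, v ((a i : 𝓞 K) : K) with hP
  set P' := ∏ᶠ v : FinitePlace L, ⨆ i, v ((algebraMap (𝓞 K) (𝓞 L) (a i) : 𝓞 L) : L) with hP'
  push_cast at h2
  have h3 : (N * P) ^ finrank K L = 1 := by rw [h1, one_pow]
  rw [mul_pow] at h3
  have hN0 : N ^ finrank K L ≠ 0 := by
    intro h
    rw [h, zero_mul] at h3
    exact zero_ne_one h3
  exact mul_left_cancel₀ hN0 (h2.trans h3.symm)


omit [NumberField K] [NumberField L] in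
theorem mw_ah_coe_algebraMap (a : 𝓞 K) :
    algebraMap K L ((a : 𝓞 K) : K) = ((algebraMap (𝓞 K) (𝓞 L) a : 𝓞 L) : L) := by
  rw [RingOfIntegers.coe_eq_algebraMap, RingOfIntegers.coe_eq_algebraMap,
    ← IsScalarTower.algebraMap_apply (𝓞 K) K L, ← IsScalarTower.algebraMap_apply (𝓞 K) (𝓞 L) L]

/-- integral tuples -/
theorem mw_ah_mulHeight_int {ι : Type*} [Finite ι] (a : ι → 𝓞 K) :
    mulHeight (fun i => algebraMap K L ((a i : 𝓞 K) : K)) =
      mulHeight (fun i => ((a i : 𝓞 K) : K)) ^ finrank K L := by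
  by_cases ha : a = 0
  · subst ha
    have h1 : (fun i : ι => algebraMap K L (((0 : ι → 𝓞 K) i : 𝓞 K) : K)) = 0 := by
      funext i; simp
    have h2 : (fun i : ι => (((0 : ι → 𝓞 K) i : 𝓞 K) : K)) = 0 := by
      funext i; simp
    rw [h1, h2, mulHeight_zero, mulHeight_zero, one_pow]
  · have hy : (fun i => ((a i : 𝓞 K) : K)) ≠ 0 := by
      intro h
      apply ha
      funext i
      have := congrFun h i
      simp only [Pi.zero_apply] at this ⊢
      exact_mod_cast this
    have hy' : (fun i => algebraMap K L ((a i : 𝓞 K) : K)) ≠ 0 := by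
      intro h
      apply hy
      funext i
      have := congrFun h i
      simp only [Pi.zero_apply] at this ⊢
      exact (algebraMap K L).injective (by rw [this, map_zero])
    rw [NumberField.mulHeight_eq hy, NumberField.mulHeight_eq hy', mul_pow, mw_ah_arch,
      ← mw_ah_fin a ha]
    rfl

/-- **the height of a tuple over a number field `K`, computed in an extension `L`, is its
`[L : K]`-th power** -/
theorem mw_ah_mulHeight {ι : Type*} [Finite ι] (x : ι → K) :
    mulHeight (fun i => algebraMap K L (x i)) = mulHeight x ^ finrank K L := by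
  obtain ⟨b, hb⟩ := IsLocalization.exist_integer_multiples_of_finite (nonZeroDivisors (𝓞 K)) x
  choose a ha using hb
  have hb0 : ((b : 𝓞 K) : K) ≠ 0 := by
    have := nonZeroDivisors.coe_ne_zero b
    exact_mod_cast this
  have hb0' : algebraMap K L ((b : 𝓞 K) : K) ≠ 0 := by
    intro h
    exact hb0 ((algebraMap K L).injective (by rw [h, map_zero]))
  have e1 : (fun i => ((a i : 𝓞 K) : K)) = ((b : 𝓞 K) : K) • x := by
    funext i
    rw [Pi.smul_apply, smul_eq_mul, RingOfIntegers.coe_eq_algebraMap, ha i, Algebra.smul_def,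
      RingOfIntegers.coe_eq_algebraMap]
  have e2 : (fun i => algebraMap K L ((a i : 𝓞 K) : K)) =
      (algebraMap K L ((b : 𝓞 K) : K)) • fun i => algebraMap K L (x i) := by
    funext i
    rw [Pi.smul_apply, smul_eq_mul, ← map_mul]
    congr 1
    exact congrFun e1 i
  have h := mw_ah_mulHeight_int (L := L) a
  rw [e1, e2, mulHeight_smul_eq_mulHeight _ hb0, mulHeight_smul_eq_mulHeight _ hb0'] at h
  exact h

theorem mw_ah_seamABS : mw_SeamABS := by
  intro K' _ ι _ v
  set u : ι → mw_K := fun i => ((v i : ↥K') : mw_K) with hu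
  have hle : mw_field u ≤ K' := by
    rw [mw_field, IntermediateField.adjoin_le_iff]
    rintro _ ⟨i, rfl⟩
    exact (v i).2
  let _ : Algebra ↥(mw_field u) ↥K' := (IntermediateField.inclusion hle).toRingHom.toAlgebra
  set v₀ : ι → ↥(mw_field u) :=
    fun i => (⟨u i, IntermediateField.subset_adjoin ℚ _ ⟨i, rfl⟩⟩ : ↥(mw_field u)) with hv₀
  have hv : v = fun i => algebraMap ↥(mw_field u) ↥K' (v₀ i) := by
    funext i
    apply Subtype.ext
    rfl
  have h1 := mw_ah_mulHeight (K := ↥(mw_field u)) (L := ↥K') v₀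
  rw [← hv] at h1
  have hd : (finrank ↥(mw_field u) ↥K' : ℝ) ≠ 0 := by
    have : 0 < finrank ↥(mw_field u) ↥K' := finrank_pos
    positivity
  have hd0 : (finrank ℚ ↥(mw_field u) : ℝ) ≠ 0 := by
    have : 0 < finrank ℚ ↥(mw_field u) := finrank_pos
    positivity
  have hmul : finrank ℚ ↥K' = finrank ℚ ↥(mw_field u) * finrank ↥(mw_field u) ↥K' :=
    (Module.finrank_mul_finrank ℚ ↥(mw_field u) ↥K').symm
  show mw_htIn K' v = mw_htIn (mw_field u) v₀
  unfold mw_htIn
  rw [logHeight_eq_log_mulHeight, logHeight_eq_log_mulHeight, h1, Real.log_pow, hmul]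
  push_cast
  field_simp

end Fermat.Agent.MW
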