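/-
Project MW (S17), the two ABSTRACT seams of the height side (Mathlib only in the proofs):

* `mw_abs_aquad : mw_SeamAQUAD` — a quasi-biadditive `β` gives a quasi-quadratic `a ↦ β a a`
  (constant `14 C`);
* `mw_abs_apos : mw_SeamAPOS` — a quasi-quadratic `q` which dominates `2 ν - C` after a translation
  from a fixed finite set dominates `ν - C''`.

Proof of APOS: if `q b < -C'/2`, then for every `y` the sequence `n ↦ q (n • b - y)` has second
differences `≤ -2δ < 0`, hence tends to `-∞`, uniformly for `y` in the finite set `Y`; this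
contradicts `q (n • b - y) ≥ -C` for some `y ∈ Y`.  So `q ≥ -C'/2` everywhere, and the parallelogram
law gives `q (a - y) ≤ 2 q a + 2 q y + C' - q (a + y) ≤ 2 q a + 2 q y + 3C'/2`.
-/
import Fermat.Agent.MW.SeamsHeight

set_option autoImplicit false

namespace Fermat.Agent.MW

/-- abstract form of [AQUAD] with the explicit constant `14 C` -/
theorem mw_abs_aquad_core {A : Type*} [AddCommGroup A] (β : A → A → ℝ) (C : ℝ)
    (hL : ∀ a b c : A, |β (a + b) c - β a c - β b c| ≤ C)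
    (hR : ∀ a b c : A, |β c (a + b) - β c a - β c b| ≤ C) (a b : A) :
    |β (a + b) (a + b) + β (a - b) (a - b) - 2 * (β a a + β b b)| ≤ 14 * C := by
  -- value at `0`
  have e1 := hR 0 0 a
  have e2 := hR 0 0 b
  have e3 := hL 0 0 a
  have e4 := hL 0 0 (-b)
  simp only [add_zero] at e1 e2 e3 e4
  -- `β (a + b) (a + b)`
  have f1 := hL a b (a + b)
  have f2 := hR a b a
  have f3 := hR a b b
  -- `β (a - b) (a - b)`
  have g1 := hL a (-b) (a + -b)
  have g2 := hR a (-b) a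
  have g3 := hR a (-b) (-b)
  -- negation in one variable
  have n1 := hR b (-b) a
  have n2 := hL b (-b) a
  have n3 := hL b (-b) (-b)
  have n4 := hR b (-b) b
  simp only [add_neg_cancel] at n1 n2 n3 n4
  rw [sub_eq_add_neg a b]
  rw [abs_le] at *
  constructor <;> linarith [e1.1, e1.2, e2.1, e2.2, e3.1, e3.2, e4.1, e4.2, f1.1, f1.2, f2.1, f2.2,
    f3.1, f3.2, g1.1, g1.2, g2.1, g2.2, g3.1, g3.2, n1.1, n1.2, n2.1, n2.2, n3.1, n3.2, n4.1, n4.2]

theorem mw_abs_aquad : mw_SeamAQUAD := by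
  intro A _ β hβ
  obtain ⟨C, hC⟩ := hβ
  exact ⟨14 * C, fun a b => mw_abs_aquad_core β C (fun a b c => (hC a b c).1)
    (fun a b c => (hC a b c).2) a b⟩

/-- a sequence with second differences `≤ -2δ` lies below a downward parabola -/
theorem mw_abs_concave (s : ℕ → ℝ) (δ : ℝ)
    (h : ∀ n, s (n + 2) - 2 * s (n + 1) + s n ≤ -2 * δ) (n : ℕ) :
    s (n + 1) - s n ≤ (s 1 - s 0) - 2 * δ * n ∧
      s n ≤ s 0 + n * (s 1 - s 0) - δ * (n * (n - 1)) := by
  induction n with
  | zero => simp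
  | succ n ih =>
    obtain ⟨ih1, ih2⟩ := ih
    have h' := h n
    push_cast
    constructor
    · have : s (n + 1 + 1) = s (n + 2) := rfl
      rw [this]
      linarith
    · nlinarith

/-- [APOS], first half: a quasi-quadratic function which is `≥ -C` at some translate `a - y`,
`y ∈ Y` finite, of every point `a`, is bounded below by `-C'/2`. -/
theorem mw_abs_bddBelow {A : Type*} [AddCommGroup A] (q : A → ℝ) (Y : Finset A) (C C' : ℝ)
    (hq : ∀ a b : A, |q (a + b) + q (a - b) - 2 * (q a + q b)| ≤ C')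
    (hY : ∀ a, ∃ y ∈ Y, -C ≤ q (a - y)) (b : A) : -(C' / 2) ≤ q b := by
  by_contra hlt
  rw [not_le] at hlt
  set δ : ℝ := -(C' / 2) - q b with hδ
  have hδpos : 0 < δ := by linarith
  -- the sequences `s_y n = q (n • b - y)`
  have hsec : ∀ y : A, ∀ n : ℕ,
      q ((n + 2) • b - y) - 2 * q ((n + 1) • b - y) + q (n • b - y) ≤ -2 * δ := by
    intro y n
    have h := hq ((n + 1) • b - y) b
    have e1 : (n + 1) • b - y + b = (n + 2) • b - y := by
      rw [add_smul, add_smul, one_smul, two_smul]; abel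
    have e2 : (n + 1) • b - y - b = n • b - y := by
      rw [add_smul, one_smul]; abel
    rw [e1, e2] at h
    have h' := (abs_le.mp h).2
    linarith
  have hpar : ∀ y : A, ∀ n : ℕ, q (n • b - y) ≤
      q ((0 : ℕ) • b - y) + n * (q ((1 : ℕ) • b - y) - q ((0 : ℕ) • b - y)) - δ * (n * (n - 1)) :=
    fun y n => (mw_abs_concave (fun n => q (n • b - y)) δ (hsec y) n).2
  -- uniform bounds over `Y`
  set S0 : ℝ := ∑ y ∈ Y, |q ((0 : ℕ) • b - y)| with hS0
  set D0 : ℝ := ∑ y ∈ Y, |q ((1 : ℕ) • b - y) - q ((0 : ℕ) • b - y)| with hD0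
  have hS0nn : 0 ≤ S0 := Finset.sum_nonneg fun _ _ => abs_nonneg _
  have hD0nn : 0 ≤ D0 := Finset.sum_nonneg fun _ _ => abs_nonneg _
  have hS0le : ∀ y ∈ Y, q ((0 : ℕ) • b - y) ≤ S0 := fun y hy =>
    (le_abs_self _).trans
      (Finset.single_le_sum (f := fun y => |q ((0 : ℕ) • b - y)|) (fun _ _ => abs_nonneg _) hy)
  have hD0le : ∀ y ∈ Y, q ((1 : ℕ) • b - y) - q ((0 : ℕ) • b - y) ≤ D0 := fun y hy =>
    (le_abs_self _).trans
      (Finset.single_le_sum (f := fun y => |q ((1 : ℕ) • b - y) - q ((0 : ℕ) • b - y)|)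
        (fun _ _ => abs_nonneg _) hy)
  -- choose `n` large
  obtain ⟨n, hn⟩ := exists_nat_gt ((D0 + S0 + |C| + 1) / δ + 1)
  have hn1 : (1 : ℝ) ≤ n := by
    have : 0 ≤ (D0 + S0 + |C| + 1) / δ := by positivity
    linarith
  have hn2 : D0 + S0 + |C| + 1 < δ * ((n : ℝ) - 1) := by
    have : (D0 + S0 + |C| + 1) / δ < (n : ℝ) - 1 := by linarith
    rw [div_lt_iff₀ hδpos] at this
    linarith
  obtain ⟨y, hyY, hy⟩ := hY (n • b)
  have h1 := hpar y n
  have h2 := hS0le y hyY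
  have h3 := hD0le y hyY
  have h4 : (n : ℝ) * (q ((1 : ℕ) • b - y) - q ((0 : ℕ) • b - y)) ≤ n * D0 :=
    mul_le_mul_of_nonneg_left h3 (by linarith)
  have h5 : C ≤ |C| := le_abs_self C
  have h7 : 0 ≤ |C| := abs_nonneg C
  have h6 : (n : ℝ) * (D0 - δ * ((n : ℝ) - 1)) ≤ 1 * (D0 - δ * ((n : ℝ) - 1)) := by
    apply mul_le_mul_of_nonpos_right hn1
    linarith
  have h8 : (n : ℝ) * (D0 - δ * ((n : ℝ) - 1)) = n * D0 - δ * (n * ((n : ℝ) - 1)) := by ring
  linarith

theorem mw_abs_apos : mw_SeamAPOS := by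
  intro A _ q ν Y C hq hν hY
  obtain ⟨C', hC'⟩ := hq
  have hlow : ∀ b, -(C' / 2) ≤ q b :=
    mw_abs_bddBelow q Y C C' hC' (fun a => by
      obtain ⟨y, hy, h⟩ := hY a
      exact ⟨y, hy, by linarith [hν a]⟩)
  set QY : ℝ := ∑ y ∈ Y, |q y| with hQY
  refine ⟨C / 2 + QY + 3 * C' / 4, fun a => ?_⟩
  obtain ⟨y, hy, h⟩ := hY a
  have h1 := (abs_le.mp (hC' a y)).2
  have h2 := hlow (a + y)
  have h3 : q y ≤ QY := (le_abs_self _).trans
    (Finset.single_le_sum (f := fun y => |q y|) (fun _ _ => abs_nonneg _) hy)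
  linarith

end Fermat.Agent.MW
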