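/-
Project MW (S17): THE ASSEMBLY of the top seams (helper7).

* `mw_S17_of_seams` : `mw_SeamWMW N → mw_SeamHeight N → ` the frozen statement S17 (verbatim), by
  Mathlib's `AddCommGroup.fg_of_descent'`;
* `mw_wmw_of_half`  : `mw_SeamDiv2 N → mw_SeamTors2 N → mw_SeamHalf N → mw_SeamWMW N`
  (elementary: `x ↦ (σ ↦ σ y_x - y_x)`, `2 y_x = x`, is injective modulo `2Γ` into the FINITE set of
  maps `G_ℚ / G_M → J[2]`; no group cohomology).
Prefix `mw_`.
-/
import Mathlib
import Fermat.Agent.MW.SeamsArith

set_option autoImplicit false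
set_option linter.style.haveILetI false

noncomputable section

namespace Fermat.Agent.MW

open ModularCurve AlgebraicCurve

/-- **S17 from the two top seams.** -/
theorem mw_S17_of_seams (N : ℕ) [NeZero N] (hW : mw_SeamWMW N) (hH : mw_SeamHeight N) :
    AddGroup.FG ↥(FixedPoints.addSubgroup
      ((AlgebraicClosure ℚ) ≃ₐ[ℚ] (AlgebraicClosure ℚ)) (JZero N)) := by
  obtain ⟨h, C, h0, hpar, hnc⟩ := hH
  exact AddCommGroup.fg_of_descent' (G := ↥(mw_Gamma N)) (h := h) (C := C) hW h0 hpar

section WMW

variable {N : ℕ}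

/-- the fixing subgroup of a number field has finite index in `G_ℚ`. -/
theorem mw_finiteIndex_fixingSubgroup (M : IntermediateField ℚ (AlgebraicClosure ℚ))
    [FiniteDimensional ℚ M] : M.fixingSubgroup.FiniteIndex := by
  haveI : IsAlgClosure ℚ (AlgebraicClosure ℚ) := ⟨inferInstance, AlgebraicClosure.isAlgebraic ℚ⟩
  haveI : IsGalois ℚ (AlgebraicClosure ℚ) := inferInstance
  refine ⟨?_⟩
  rw [← IntermediateField.finrank_eq_fixingSubgroup_index]
  exact Module.finrank_pos.ne'

/-- **weak Mordell–Weil at `2` from (D2), (T2), (HALF).** -/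
theorem mw_wmw_of_half (hD : mw_SeamDiv2 N) (hT : mw_SeamTors2 N) (hH : mw_SeamHalf N) :
    mw_SeamWMW N := by
  classical
  obtain ⟨M, hMfin, hM⟩ := hH
  haveI := hMfin
  haveI : M.fixingSubgroup.FiniteIndex := mw_finiteIndex_fixingSubgroup M
  haveI : Finite (mw_G ⧸ M.fixingSubgroup) := Subgroup.finite_quotient_of_finiteIndex
  haveI : Finite ↥{z : JZero N | 2 • z = 0} := hT.to_subtype
  -- a half of every rational class
  choose! half hhalf using hD
  -- the Kummer map (as a map of sets)
  have hwd : ∀ (x : ↥(mw_Gamma N)) (σ τ : mw_G), QuotientGroup.leftRel M.fixingSubgroup σ τ →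
      σ • half x - half x = τ • half x - half x := by
    intro x σ τ hστ
    rw [QuotientGroup.leftRel_apply] at hστ
    have h1 := hM x x.2 (half x) (hhalf x x.2) _ hστ
    rw [mul_smul] at h1
    have h2 : τ • half (x : JZero N) = σ • half (x : JZero N) := by
      have := congrArg (fun z => σ • z) h1
      simpa [smul_smul] using this
    rw [h2]
  have hmem : ∀ (x : ↥(mw_Gamma N)) (σ : mw_G),
      σ • half x - half x ∈ {z : JZero N | 2 • z = 0} := by
    intro x σ
    show 2 • (σ • half (x : JZero N) - half (x : JZero N)) = 0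
    have h1 : 2 • (σ • half (x : JZero N)) = σ • (2 • half (x : JZero N)) := by
      rw [two_nsmul, two_nsmul, smul_add]
    rw [nsmul_sub, h1, hhalf x x.2, mw_mem_Gamma.1 x.2 σ, sub_self]
  let Φ : ↥(mw_Gamma N) → (mw_G ⧸ M.fixingSubgroup → ↥{z : JZero N | 2 • z = 0}) := fun x =>
    Quotient.lift (s := QuotientGroup.leftRel M.fixingSubgroup)
      (fun σ => (⟨σ • half x - half x, hmem x σ⟩ : ↥{z : JZero N | 2 • z = 0}))
      (fun σ τ hστ => Subtype.ext (hwd x σ τ hστ))
  have hΦ : ∀ x x' : ↥(mw_Gamma N), Φ x = Φ x' →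
      x - x' ∈ (nsmulAddMonoidHom (α := ↥(mw_Gamma N)) 2).range := by
    intro x x' hxx
    have h1 : ∀ σ : mw_G, σ • half (x : JZero N) - half (x : JZero N)
        = σ • half (x' : JZero N) - half (x' : JZero N) := by
      intro σ
      have := congrFun hxx (QuotientGroup.mk σ)
      exact congrArg Subtype.val this
    have hw : half (x : JZero N) - half (x' : JZero N) ∈ mw_Gamma N := by
      rw [mw_mem_Gamma]
      intro σ
      rw [smul_sub]
      have := h1 σ
      rw [sub_eq_sub_iff_add_eq_add] at this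
      rw [sub_eq_sub_iff_add_eq_add, this, add_comm]
    refine ⟨⟨_, hw⟩, Subtype.ext ?_⟩
    show 2 • (half (x : JZero N) - half (x' : JZero N)) = (x : JZero N) - (x' : JZero N)
    rw [nsmul_sub, hhalf x x.2, hhalf x' x'.2]
  -- the quotient injects into a finite set
  have hinj : Function.Injective
      (fun q : ↥(mw_Gamma N) ⧸ (nsmulAddMonoidHom (α := ↥(mw_Gamma N)) 2).range =>
        Φ (Quotient.out q)) := by
    intro q q' hqq
    have := hΦ _ _ hqq
    rw [← QuotientAddGroup.out_eq' q, ← QuotientAddGroup.out_eq' q']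
    rw [QuotientAddGroup.eq]
    have h2 : -Quotient.out q + Quotient.out q' = -(Quotient.out q - Quotient.out q') := by abel
    rw [h2]
    exact neg_mem this
  haveI : Finite (↥(mw_Gamma N) ⧸ (nsmulAddMonoidHom (α := ↥(mw_Gamma N)) 2).range) :=
    Finite.of_injective _ hinj
  exact AddSubgroup.finiteIndex_of_finite_quotient

end WMW

end Fermat.Agent.MW
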