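/-
Project MW (S17), height side, leaf **[BIL]** (architect helper7 #1823, seams helper27):
`mw_bil : mw_SeamLEI N → mw_SeamMOVE N → mw_SeamBIL N`.

`β (a, b) := B (D_a, E_{a,b})` with `D_a`, `E_{a,b}` the representatives given by [MOVE]
(`E_{a,b}` avoiding the support of `D_a`).  `mw_IsPairing` is obtained by changing one
representative at a time through a third one which avoids everything (three applications of [LEI];
`mw_B` is exactly biadditive and exactly symmetric); quasi-biadditivity and quasi-symmetry follow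
from `mw_IsPairing` at norm `2 n₀`.  Prefix `mw_bil_`.
-/
import Fermat.Agent.MW.SeamsHeight

set_option autoImplicit false

noncomputable section

namespace Fermat.Agent.MW

open AlgebraicCurve ModularCurve
open scoped Classical

/-! ### symmetry of the diagonal height -/

theorem mw_bil_htIn_congr {ι : Type} [Finite ι] (K₁ K₂ : IntermediateField ℚ mw_K)
    [NumberField ↥K₁] [NumberField ↥K₂] (h : K₁ = K₂) (v₁ : ι → ↥K₁) (v₂ : ι → ↥K₂)
    (hv : ∀ i, ((v₁ i : ↥K₁) : mw_K) = v₂ i) : mw_htIn K₁ v₁ = mw_htIn K₂ v₂ := by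
  subst h
  have : v₁ = v₂ := funext fun i => Subtype.ext (hv i)
  subst this
  rfl

theorem mw_bil_field_neg {ι : Type} (w : ι → mw_K) : mw_field (fun i => - w i) = mw_field w := by
  unfold mw_field
  apply le_antisymm
  · rw [IntermediateField.adjoin_le_iff]
    rintro _ ⟨i, rfl⟩
    exact neg_mem (IntermediateField.subset_adjoin ℚ _ ⟨i, rfl⟩)
  · rw [IntermediateField.adjoin_le_iff]
    rintro _ ⟨i, rfl⟩
    have : - w i ∈ IntermediateField.adjoin ℚ (Set.range fun i => - w i) :=
      IntermediateField.subset_adjoin ℚ _ ⟨i, rfl⟩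
    simpa using neg_mem this

theorem mw_bil_ht_neg {ι : Type} [Finite ι] (w : ι → mw_K) :
    mw_ht (fun i => - w i) = mw_ht w := by
  unfold mw_ht
  rw [mw_bil_htIn_congr _ _ (mw_bil_field_neg w) _
    (-(fun i => (⟨w i, IntermediateField.subset_adjoin ℚ _ ⟨i, rfl⟩⟩ : ↥(mw_field w))))
    (fun i => rfl)]
  unfold mw_htIn
  rw [Height.logHeight_neg]

theorem mw_bil_hD_symm {N r : ℕ} (x : Fin (r + 1) → mw_F N) (P Q : mw_X N) :
    mw_hD x P Q = mw_hD x Q P := by
  unfold mw_hD
  have h : mw_wedge (mw_vec x Q) (mw_vec x P)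
      = fun p => - mw_wedge (mw_vec x P) (mw_vec x Q) p := by
    funext p
    simp only [mw_wedge]
    ring
  rw [h, mw_bil_ht_neg]
  ring

/-! ### the global pairing is biadditive and symmetric -/

section B

variable {N r : ℕ} (x : Fin (r + 1) → mw_F N)

theorem mw_bil_B_add_left (D D' E : mw_Div N) :
    mw_B x (D + D') E = mw_B x D E + mw_B x D' E := by
  unfold mw_B
  rw [Finsupp.sum_add_index', neg_add]
  · intro P
    simp [Finsupp.sum]
  · intro P n₁ n₂
    rw [← Finsupp.sum_add]
    refine Finsupp.sum_congr fun Q _ => ?_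
    push_cast
    ring

theorem mw_bil_B_add_right (D E E' : mw_Div N) :
    mw_B x D (E + E') = mw_B x D E + mw_B x D E' := by
  unfold mw_B
  rw [← neg_add, ← Finsupp.sum_add]
  congr 1
  refine Finsupp.sum_congr fun P _ => ?_
  rw [Finsupp.sum_add_index']
  · intro Q
    simp
  · intro Q m₁ m₂
    push_cast
    ring

theorem mw_bil_B_symm (D E : mw_Div N) : mw_B x D E = mw_B x E D := by
  unfold mw_B
  rw [Finsupp.sum_comm]
  congr 1
  refine Finsupp.sum_congr fun Q _ => Finsupp.sum_congr fun P _ => ?_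
  rw [mw_bil_hD_symm x P Q, mul_comm (D P) (E Q)]

theorem mw_bil_B_sub_left (D D' E : mw_Div N) :
    mw_B x (D - D') E = mw_B x D E - mw_B x D' E := by
  have := mw_bil_B_add_left x (D - D') D' E
  rw [sub_add_cancel] at this
  linarith

theorem mw_bil_B_sub_right (D E E' : mw_Div N) :
    mw_B x D (E - E') = mw_B x D E - mw_B x D E' := by
  have := mw_bil_B_add_right x D (E - E') E'
  rw [sub_add_cancel] at this
  linarith

end B

/-! ### norms and supports -/

section norm

variable {N : ℕ}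

theorem mw_bil_norm_eq (D : mw_Div N) (s : Finset (mw_X N)) (hs : D.support ⊆ s) :
    mw_norm D = s.sum fun P => (D P).natAbs := by
  unfold mw_norm
  refine Finset.sum_subset hs fun P _ hP => ?_
  rw [Finsupp.notMem_support_iff.1 hP]
  rfl

theorem mw_bil_norm_add_le (D E : mw_Div N) : mw_norm (D + E) ≤ mw_norm D + mw_norm E := by
  rw [mw_bil_norm_eq (D + E) (D.support ∪ E.support) Finsupp.support_add,
    mw_bil_norm_eq D (D.support ∪ E.support) Finset.subset_union_left,
    mw_bil_norm_eq E (D.support ∪ E.support) Finset.subset_union_right, ← Finset.sum_add_distrib]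
  exact Finset.sum_le_sum fun P _ => Int.natAbs_add_le _ _

theorem mw_bil_norm_neg (D : mw_Div N) : mw_norm (-D) = mw_norm D := by
  unfold mw_norm
  rw [Finsupp.support_neg]
  exact Finset.sum_congr rfl fun P _ => by rw [Finsupp.neg_apply, Int.natAbs_neg]

theorem mw_bil_norm_sub_le (D E : mw_Div N) : mw_norm (D - E) ≤ mw_norm D + mw_norm E := by
  rw [sub_eq_add_neg]
  exact (mw_bil_norm_add_le D (-E)).trans (by rw [mw_bil_norm_neg])

theorem mw_bil_disjoint_sub {D E : mw_Div N} {s : Finset (mw_X N)}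
    (hD : Disjoint D.support s) (hE : Disjoint E.support s) : Disjoint (D - E).support s :=
  Finset.disjoint_of_subset_left Finsupp.support_sub (Finset.disjoint_union_left.2 ⟨hD, hE⟩)

theorem mw_bil_disjoint_add {D E : mw_Div N} {s : Finset (mw_X N)}
    (hD : Disjoint D.support s) (hE : Disjoint E.support s) : Disjoint (D + E).support s :=
  Finset.disjoint_of_subset_left Finsupp.support_add (Finset.disjoint_union_left.2 ⟨hD, hE⟩)

/-- two representatives of the same class differ by a principal divisor -/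
theorem mw_bil_exists_divOf {D D' : mw_Div0 N} (h : mw_cl D = mw_cl D') :
    ∃ f : mw_F N, mw_IsDivOf (D.1 - D'.1) f := by
  have h1 : -D' + D ∈ (Divisor.principal (K := mw_K) (F := mw_F N)).addSubgroupOf
      (Divisor.degZero (K := mw_K) (F := mw_F N)) := QuotientAddGroup.eq.1 h.symm
  rw [AddSubgroup.mem_addSubgroupOf] at h1
  obtain ⟨f, hf, hfD⟩ := h1
  refine ⟨f, hf, fun P => ?_⟩
  rw [← hfD P]
  simp [sub_eq_neg_add]

theorem mw_bil_degree_zero (D : mw_Div0 N) : Divisor.degree D.1 = 0 := D.2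

end norm

/-! ### the pairing on classes -/

section main

variable (N : ℕ) [NeZero N]

omit [NeZero N] in
/-- the comparison lemma: the global pairing of representatives of bounded norm with disjoint
supports depends on the classes only, up to a constant. -/
theorem mw_bil_compare (hLEI : mw_SeamLEI N) (hMOVE : mw_SeamMOVE N) {r : ℕ}
    (x : Fin (r + 1) → mw_F N) (hx : mw_IsRef N x) (n : ℕ) :
    ∃ C : ℝ, ∀ D D' E E' : mw_Div0 N, mw_cl D = mw_cl D' → mw_cl E = mw_cl E' →
      mw_norm D.1 ≤ n → mw_norm D'.1 ≤ n → mw_norm E.1 ≤ n → mw_norm E'.1 ≤ n →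
      Disjoint D.1.support E.1.support → Disjoint D'.1.support E'.1.support →
      |mw_B x D.1 E.1 - mw_B x D'.1 E'.1| ≤ C := by
  obtain ⟨n₀, hn₀⟩ := hMOVE
  obtain ⟨C, hC⟩ := hLEI x hx (2 * n + n₀)
  refine ⟨3 * C, fun D D' E E' hDD' hEE' hD hD' hE hE' hdis hdis' => ?_⟩
  obtain ⟨E'', hE''cl, hE''n, hE''dis⟩ := hn₀ (mw_cl E) (D.1.support ∪ D'.1.support)
  rw [Finset.disjoint_union_right] at hE''dis
  obtain ⟨hE''D, hE''D'⟩ := hE''dis
  -- step 1: `E → E''` against `D`
  obtain ⟨f₁, hf₁⟩ := mw_bil_exists_divOf (D := E) (D' := E'') hE''cl.symm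
  have h1 : |mw_B x D.1 (E.1 - E''.1)| ≤ C :=
    hC D.1 (E.1 - E''.1) f₁ hf₁ (mw_bil_degree_zero D) (by omega)
      ((mw_bil_norm_sub_le _ _).trans (by omega))
      (mw_bil_disjoint_sub hdis.symm hE''D).symm
  -- step 2: `D → D'` against `E''`
  obtain ⟨f₂, hf₂⟩ := mw_bil_exists_divOf (D := D) (D' := D') hDD'
  have h2 : |mw_B x E''.1 (D.1 - D'.1)| ≤ C :=
    hC E''.1 (D.1 - D'.1) f₂ hf₂ (mw_bil_degree_zero E'') (by omega)
      ((mw_bil_norm_sub_le _ _).trans (by omega))
      (mw_bil_disjoint_sub hE''D.symm hE''D'.symm).symm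
  -- step 3: `E'' → E'` against `D'`
  obtain ⟨f₃, hf₃⟩ := mw_bil_exists_divOf (D := E'') (D' := E') (hE''cl.trans hEE')
  have h3 : |mw_B x D'.1 (E''.1 - E'.1)| ≤ C :=
    hC D'.1 (E''.1 - E'.1) f₃ hf₃ (mw_bil_degree_zero D') (by omega)
      ((mw_bil_norm_sub_le _ _).trans (by omega))
      (mw_bil_disjoint_sub hE''D' hdis'.symm).symm
  rw [mw_bil_B_sub_right] at h1 h3
  rw [mw_bil_B_symm, mw_bil_B_sub_left] at h2
  have key : mw_B x D.1 E.1 - mw_B x D'.1 E'.1
      = (mw_B x D.1 E.1 - mw_B x D.1 E''.1) + (mw_B x D.1 E''.1 - mw_B x D'.1 E''.1)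
        + (mw_B x D'.1 E''.1 - mw_B x D'.1 E'.1) := by ring
  rw [key]
  calc _ ≤ |mw_B x D.1 E.1 - mw_B x D.1 E''.1| + |mw_B x D.1 E''.1 - mw_B x D'.1 E''.1|
        + |mw_B x D'.1 E''.1 - mw_B x D'.1 E'.1| := abs_add_three _ _ _
    _ ≤ 3 * C := by linarith

omit [NeZero N] in
/-- **[BIL]** the Néron–Tate-type pairing on `J₀(N)(Q̄)` exists. -/
theorem mw_bil (hLEI : mw_SeamLEI N) (hMOVE : mw_SeamMOVE N) : mw_SeamBIL N := by
  intro r x hx
  obtain ⟨n₀, hn₀⟩ := id hMOVE
  choose rep hrep_cl hrep_n hrep_dis using hn₀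
  -- the chosen representatives
  set Da : JZero N → mw_Div0 N := fun a => rep a ∅ with hDa
  set Eab : JZero N → JZero N → mw_Div0 N := fun a b => rep b (Da a).1.support with hEab
  set β : JZero N → JZero N → ℝ := fun a b => mw_B x (Da a).1 (Eab a b).1 with hβ
  have hpair : mw_IsPairing N x β := by
    intro n
    obtain ⟨C, hC⟩ := mw_bil_compare N hLEI hMOVE x hx (max n n₀)
    refine ⟨C, fun D E hD hE hdis => ?_⟩
    exact hC (Da (mw_cl D)) D (Eab (mw_cl D) (mw_cl E)) E (hrep_cl _ _) (hrep_cl _ _)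
      ((hrep_n _ _).trans (le_max_right _ _)) (hD.trans (le_max_left _ _))
      ((hrep_n _ _).trans (le_max_right _ _)) (hE.trans (le_max_left _ _))
      (hrep_dis _ _).symm hdis
  refine ⟨β, hpair, ?_, ?_⟩
  · -- quasi-biadditivity
    obtain ⟨C, hC⟩ := hpair (2 * n₀)
    refine ⟨3 * C, fun a b c => ⟨?_, ?_⟩⟩
    · -- first variable
      set E := rep c ((Da a).1.support ∪ (Da b).1.support) with hE
      have hEdis := hrep_dis c ((Da a).1.support ∪ (Da b).1.support)
      rw [Finset.disjoint_union_right] at hEdis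
      have hab : mw_cl (Da a + Da b) = a + b := by
        rw [mw_cl, Pic0.mk_add]
        exact congrArg₂ (· + ·) (hrep_cl a ∅) (hrep_cl b ∅)
      have h1 := hC (Da a + Da b) E
        ((mw_bil_norm_add_le _ _).trans (by
          have h1 : mw_norm (Da a).1 ≤ n₀ := hrep_n a ∅
          have h2 : mw_norm (Da b).1 ≤ n₀ := hrep_n b ∅
          omega))
        ((hrep_n _ _).trans (by omega))
        (mw_bil_disjoint_add hEdis.1.symm hEdis.2.symm)
      have h2 := hC (Da a) E ((hrep_n _ _).trans (by omega)) ((hrep_n _ _).trans (by omega))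
        hEdis.1.symm
      have h3 := hC (Da b) E ((hrep_n _ _).trans (by omega)) ((hrep_n _ _).trans (by omega))
        hEdis.2.symm
      rw [hab, hrep_cl] at h1
      rw [hrep_cl, hrep_cl] at h2 h3
      have hadd : mw_B x (Da a + Da b : mw_Div0 N).1 E.1
          = mw_B x (Da a).1 E.1 + mw_B x (Da b).1 E.1 := mw_bil_B_add_left x _ _ _
      rw [hadd] at h1
      rw [abs_le] at h1 h2 h3 ⊢
      constructor <;> linarith [h1.1, h1.2, h2.1, h2.2, h3.1, h3.2]
    · -- second variable
      set D := Da c with hD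
      set Ea := rep a D.1.support with hEa
      set Eb := rep b D.1.support with hEb
      have hab : mw_cl (Ea + Eb) = a + b := by
        rw [mw_cl, Pic0.mk_add]
        exact congrArg₂ (· + ·) (hrep_cl a _) (hrep_cl b _)
      have h1 := hC D (Ea + Eb) ((hrep_n _ _).trans (by omega))
        ((mw_bil_norm_add_le _ _).trans (by
          have h1 : mw_norm Ea.1 ≤ n₀ := hrep_n a D.1.support
          have h2 : mw_norm Eb.1 ≤ n₀ := hrep_n b D.1.support
          omega))
        (mw_bil_disjoint_add (hrep_dis a _) (hrep_dis b _)).symm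
      have h2 := hC D Ea ((hrep_n _ _).trans (by omega)) ((hrep_n _ _).trans (by omega))
        (hrep_dis a _).symm
      have h3 := hC D Eb ((hrep_n _ _).trans (by omega)) ((hrep_n _ _).trans (by omega))
        (hrep_dis b _).symm
      rw [hab, hrep_cl] at h1
      rw [hrep_cl, hrep_cl] at h2 h3
      have hadd : mw_B x D.1 (Ea + Eb : mw_Div0 N).1
          = mw_B x D.1 Ea.1 + mw_B x D.1 Eb.1 := mw_bil_B_add_right x _ _ _
      rw [hadd] at h1
      rw [abs_le] at h1 h2 h3 ⊢
      constructor <;> linarith [h1.1, h1.2, h2.1, h2.2, h3.1, h3.2]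
  · -- quasi-symmetry
    obtain ⟨C, hC⟩ := hpair n₀
    refine ⟨2 * C, fun a b => ?_⟩
    have h1 := hC (Da a) (Eab a b) (hrep_n _ _) (hrep_n _ _) (hrep_dis _ _).symm
    have h2 := hC (Eab a b) (Da a) (hrep_n _ _) (hrep_n _ _) (hrep_dis _ _)
    rw [hrep_cl, hrep_cl] at h1 h2
    rw [mw_bil_B_symm x (Eab a b).1 (Da a).1] at h2
    rw [abs_le] at h1 h2 ⊢
    constructor <;> linarith [h1.1, h1.2, h2.1, h2.2]

end main

end Fermat.Agent.MW
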