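/-
Project MW (S17), height side, leaf **[MINREP]** (architect helper7 #1823, seams helper27):
`mw_mr : mw_SeamMINREP N` — every class of `J₀(N)(Q̄)` has a minimal reduced representative
`E - (deg E)·∞`: `k` minimal with `l(D₀ + k∞) ≥ 1`, `E := D₀ + k∞ + (f)`.

Generic form `mw_mr_exists` in the `rt_` context (a function field with a separating generator
over an algebraically closed field), from Riemann's inequality alone.  Prefix `mw_mr_`.
-/
import Fermat.Agent.MW.SeamsHeight
import Fermat.Agent.JT3.Riemann.FBar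

set_option autoImplicit false
set_option linter.unusedSectionVars false

noncomputable section

namespace Fermat.Agent.MW

open AlgebraicCurve ModularCurve Fermat.Agent.JT3

section generic

universe u v
variable {K : Type u} {F : Type v} [Field K] [Field F] [Algebra K F] [IsAlgClosed K]
  {x : F} (hx : rt_IsSepGen K x)

include hx

theorem mw_mr_one_le_l_of_mem {D : Divisor K F} {f : F} (hf : f ≠ 0)
    (hfD : f ∈ riemannRochSpace D) : 1 ≤ Module.finrank K ↥(riemannRochSpace D) := by
  have := rt_L_finite hx D
  exact Module.finrank_pos_iff_exists_ne_zero.mpr ⟨⟨f, hfD⟩, fun h => hf (congrArg Subtype.val h)⟩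

/-- **minimal reduced representatives** (generic): for a divisor `D₀` of degree `0` and a place
`P` there is an effective divisor `E` with `E P = 0`, `l(E) = 1` and `E - (deg E)·P ∼ D₀`. -/
theorem mw_mr_exists (P : Place K F) (D₀ : Divisor K F) (hD₀ : Divisor.degree D₀ = 0) :
    ∃ (E : Divisor K F) (f : F), f ≠ 0 ∧ 0 ≤ E ∧ E P = 0 ∧
      Module.finrank K ↥(riemannRochSpace E) = 1 ∧
      E - Finsupp.single P (Divisor.degree E) = D₀ + rt_div hx f := by
  classical
  obtain ⟨g, hg⟩ := rt_riemann_ineq hx
  have hex : ∃ k : ℕ, 1 ≤ Module.finrank K ↥(riemannRochSpace (D₀ + Finsupp.single P (k : ℤ))) := by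
    refine ⟨g, ?_⟩
    have h := hg (D₀ + Finsupp.single P (g : ℤ))
    rw [map_add, hD₀, rt_degree_single hx] at h
    have : (1 : ℤ) ≤ (Module.finrank K ↥(riemannRochSpace (D₀ + Finsupp.single P (g : ℤ))) : ℤ) := by
      linarith
    exact_mod_cast this
  obtain ⟨k, hk1, hkmin⟩ : ∃ k : ℕ,
      1 ≤ Module.finrank K ↥(riemannRochSpace (D₀ + Finsupp.single P (k : ℤ))) ∧
      ∀ m < k, ¬ 1 ≤ Module.finrank K ↥(riemannRochSpace (D₀ + Finsupp.single P (m : ℤ))) :=
    ⟨Nat.find hex, Nat.find_spec hex, fun m hm => Nat.find_min hex hm⟩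
  have hfin := rt_L_finite hx (D₀ + Finsupp.single P (k : ℤ))
  obtain ⟨⟨f, hfmem⟩, hf0'⟩ := Module.finrank_pos_iff_exists_ne_zero.mp hk1
  have hf0 : f ≠ 0 := fun h => hf0' (Subtype.ext h)
  have hford := (rt_mem_L_iff hf0).mp hfmem
  set E : Divisor K F := D₀ + Finsupp.single P (k : ℤ) + rt_div hx f with hE
  have hEnn : 0 ≤ E := by
    rw [Finsupp.le_def]
    intro v
    have := hford v
    rw [Finsupp.zero_apply, hE, Finsupp.add_apply, rt_div_apply]
    omega
  have hdegE : Divisor.degree E = k := by
    rw [hE, map_add, map_add, hD₀, rt_degree_single hx, rt_degree_div, zero_add, add_zero]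
  have hlE : Module.finrank K ↥(riemannRochSpace E) =
      Module.finrank K ↥(riemannRochSpace (D₀ + Finsupp.single P (k : ℤ))) :=
    rt_finrank_L_add_div hx _ hf0
  -- the case distinction `k = 0` / `k ≥ 1`
  have hmain : E P = 0 ∧ Module.finrank K ↥(riemannRochSpace E) = 1 := by
    rcases Nat.eq_zero_or_pos k with hk0 | hkpos
    · -- `k = 0`: `E` is effective of degree `0`, hence `0`
      have hE0 : E = 0 := by
        by_contra hne
        have := rt_degree_lt_of_lt hx hEnn (Ne.symm hne)
        rw [map_zero, hdegE, hk0] at this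
        exact lt_irrefl _ this
      rw [hE0]
      exact ⟨rfl, rt_finrank_L_zero hx⟩
    · obtain ⟨m, hm⟩ : ∃ m : ℕ, k = m + 1 := ⟨k - 1, by omega⟩
      have hm' := hkmin m (by omega)
      have hsplit : D₀ + Finsupp.single P (k : ℤ)
          = (D₀ + Finsupp.single P (m : ℤ)) + Finsupp.single P 1 := by
        rw [add_assoc, ← Finsupp.single_add, hm]
        push_cast
        rfl
      constructor
      · by_contra hne
        have hpos : 1 ≤ E P := by
          have := Finsupp.le_def.mp hEnn P
          rw [Finsupp.zero_apply] at this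
          omega
        apply hm'
        refine mw_mr_one_le_l_of_mem hx hf0 ((rt_mem_L_iff hf0).mpr fun v => ?_)
        by_cases hv : v = P
        · subst hv
          rw [hE, Finsupp.add_apply, Finsupp.add_apply, Finsupp.single_eq_same, rt_div_apply,
            hm] at hpos
          rw [Finsupp.add_apply, Finsupp.single_eq_same]
          push_cast at hpos
          omega
        · have hsv : ∀ c : ℤ, (Finsupp.single P c) v = 0 := fun c => by
            rw [Finsupp.single_apply, if_neg (Ne.symm hv)]
          have := hford v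
          rw [Finsupp.add_apply, hsv] at this ⊢
          exact this
      · rw [hlE]
        apply le_antisymm _ hk1
        rw [hsplit]
        have h1 := (rt_L_step_finite hx (D₀ + Finsupp.single P (m : ℤ)) P (rt_L_finite hx _)).2
        omega
  refine ⟨E, f, hf0, hEnn, hmain.1, hmain.2, ?_⟩
  rw [hdegE, hE]
  abel

end generic

/-- **[MINREP]** every class of `J₀(N)(Q̄)` has a minimal reduced representative. -/
theorem mw_mr (N : ℕ) [NeZero N] : mw_SeamMINREP N := by
  intro Pinf _ a
  obtain ⟨D₀, rfl⟩ := Pic0.mk_surjective a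
  have hx := rt_isSepGen_jBar N
  obtain ⟨E, f, hf0, hEnn, hEP, hlE, hEq⟩ := mw_mr_exists hx Pinf D₀.1 D₀.2
  have hmem : E - Finsupp.single Pinf (Divisor.degree E) ∈
      Divisor.degZero (K := mw_K) (F := mw_F N) := by
    rw [hEq, Divisor.mem_degZero, map_add, rt_degree_div, add_zero]
    exact D₀.2
  refine ⟨E, hEnn, hEP, hlE, hmem, ?_⟩
  show Pic0.mk _ = Pic0.mk D₀
  refine QuotientAddGroup.eq.2 ?_
  rw [AddSubgroup.mem_addSubgroupOf]
  have : ((-(⟨E - Finsupp.single Pinf (Divisor.degree E), hmem⟩ : mw_Div0 N) + D₀ : mw_Div0 N) :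
      mw_Div N) = rt_div hx f⁻¹ := by
    rw [rt_div_inv]
    show -(E - Finsupp.single Pinf (Divisor.degree E)) + D₀.1 = _
    rw [hEq]
    abel
  rw [this]
  exact rt_div_isPrincipal hx (inv_ne_zero hf0)

end Fermat.Agent.MW
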