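/-
Project MW (S17): THE ASSEMBLY OF THE HEIGHT SIDE, v2 (architect helper7).  Same as helper27's
`mw_height_of_seams` (`MW/HeightAssembly.lean`) with `mw_SeamPOS1` (`MW/Global/Seams.lean`) in place
of `mw_SeamPOS` + `mw_SeamAPOS`: the height is `h a = β a a + const`.
-/
import Fermat.Agent.MW.Global.Seams
import Fermat.Agent.MW.Assembly

set_option autoImplicit false

namespace Fermat.Agent.MW

open AlgebraicCurve ModularCurve

/-- **height-side assembly, v2**: the top seams of the height side give the height seam. -/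
theorem mw_height_of_seams2 (N : ℕ) [NeZero N]
    (hREF : mw_SeamREF N) (hINF : mw_SeamINF N) (hBIL : mw_SeamBIL N) (hAQ : mw_SeamAQUAD)
    (hPOS : mw_SeamPOS1 N) (hMIN : mw_SeamMINREP N)
    (hLB : mw_SeamNAIVELB N) (hNOR : mw_SeamNORTH N) : mw_SeamHeight N := by
  obtain ⟨r, x, hx⟩ := hREF
  obtain ⟨Pinf, hPinf⟩ := hINF
  obtain ⟨β, hβ, hβadd, -⟩ := hBIL x hx
  obtain ⟨Cq, hq⟩ := hAQ (JZero N) β hβadd
  obtain ⟨C, hC⟩ := hPOS x hx Pinf hPinf β hβ hβadd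
  obtain ⟨C1, hC1⟩ := hLB x hx Pinf hPinf
  -- minimal reduced representatives
  choose E hE using hMIN Pinf hPinf
  -- the height on `Γ`
  let h : ↥(mw_Gamma N) → ℝ := fun a => β a.1 a.1 + (C + C1)
  have hh0 : ∀ a, 0 ≤ h a := fun a => by
    have h1 := hC a.1 (E a.1) (hE a.1)
    have h2 := hC1 a.1 (E a.1) (hE a.1)
    show 0 ≤ β a.1 a.1 + (C + C1)
    linarith
  have hpar : ∀ a b : ↥(mw_Gamma N),
      |h (a + b) + h (a - b) - 2 * (h a + h b)| ≤ Cq + 2 * |C + C1| := by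
    intro a b
    have h1 := hq a.1 b.1
    show |(β (a + b).1 (a + b).1 + (C + C1)) + (β (a - b).1 (a - b).1 + (C + C1))
      - 2 * ((β a.1 a.1 + (C + C1)) + (β b.1 b.1 + (C + C1)))| ≤ Cq + 2 * |C + C1|
    have e1 : ((a + b : ↥(mw_Gamma N)) : JZero N) = a.1 + b.1 := rfl
    have e2 : ((a - b : ↥(mw_Gamma N)) : JZero N) = a.1 - b.1 := rfl
    rw [e1, e2]
    have h3 : (β (a.1 + b.1) (a.1 + b.1) + (C + C1)) + (β (a.1 - b.1) (a.1 - b.1) + (C + C1))
        - 2 * ((β a.1 a.1 + (C + C1)) + (β b.1 b.1 + (C + C1)))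
        = (β (a.1 + b.1) (a.1 + b.1) + β (a.1 - b.1) (a.1 - b.1)
            - 2 * (β a.1 a.1 + β b.1 b.1)) + (-2 * (C + C1)) := by ring
    rw [h3]
    refine (abs_add_le _ _).trans ?_
    have h4 : |(-2 * (C + C1))| = 2 * |C + C1| := by
      rw [abs_mul]; norm_num
    rw [h4]
    linarith
  have : Northcott h := by
    refine ⟨fun B => ?_⟩
    have hfin := hNOR x hx Pinf hPinf (B - C1)
    have hfin' : {a : ↥(mw_Gamma N) | (a : JZero N) ∈ {a : JZero N | a ∈ mw_Gamma N ∧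
        ∃ E : mw_Div N, mw_IsMinRep N Pinf a E ∧ mw_naive N x Pinf E ≤ B - C1}}.Finite :=
      hfin.preimage (Subtype.val_injective.injOn)
    refine hfin'.subset ?_
    intro a ha
    have ha' : β a.1 a.1 + (C + C1) ≤ B := ha
    have h1 := hC a.1 (E a.1) (hE a.1)
    refine ⟨a.2, E a.1, hE a.1, ?_⟩
    linarith
  exact ⟨h, Cq + 2 * |C + C1|, hh0, hpar, this⟩

/-- **S17 from the seams of both sides, v2.** -/
theorem mw_S17_of_all2 (N : ℕ) [NeZero N] (hW : mw_SeamWMW N)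
    (hREF : mw_SeamREF N) (hINF : mw_SeamINF N) (hBIL : mw_SeamBIL N) (hAQ : mw_SeamAQUAD)
    (hPOS : mw_SeamPOS1 N) (hMIN : mw_SeamMINREP N)
    (hLB : mw_SeamNAIVELB N) (hNOR : mw_SeamNORTH N) :
    AddGroup.FG ↥(FixedPoints.addSubgroup (AlgebraicClosure ℚ ≃ₐ[ℚ] AlgebraicClosure ℚ)
      (JZero N)) :=
  mw_S17_of_seams N hW (mw_height_of_seams2 N hREF hINF hBIL hAQ hPOS hMIN hLB hNOR)

end Fermat.Agent.MW
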