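/-
Project MW (S17), height side, leaf **[MOVE]** (architect helper7 #1823, seams helper27):
`mw_mv : mw_SeamMOVE N` — every class of `J₀(N)(Q̄)` has a representative `E' - n·Q` of norm `≤ 2n`
(`n` depending on `N` only) whose support avoids a given finite set `S` of points.

Generic form `mw_mv_exists` in the `rt_` context, from Riemann's theorem: `Q ∉ S`, `n ≥ c + 1`, the
spaces `L(D₀ + nQ - s)`, `s ∈ S`, are proper subspaces of `L(D₀ + nQ)` and a vector space over an
infinite field is not a finite union of proper subspaces.  Prefix `mw_mv_`.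
-/
import Fermat.Agent.MW.Bil
import Fermat.Agent.JT3.Riemann.FBar
import Fermat.Agent.FF.Generic

set_option autoImplicit false
set_option linter.unusedSectionVars false

noncomputable section

namespace Fermat.Agent.MW

open AlgebraicCurve ModularCurve Fermat.Agent.JT3 Fermat.Agent.FF

section generic

universe u v
variable {K : Type u} {F : Type v} [Field K] [Field F] [Algebra K F] [IsAlgClosed K]
  {x : F} (hx : rt_IsSepGen K x)

include hx

/-- **moving lemma** (generic): for `n ≥ c + 1` (`c` the Riemann bound), a divisor `D₀` of degree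
`0` and a finite set `S` of places there are a place `Q ∉ S`, an effective divisor `E'` of degree
`n` with support disjoint from `S`, and `f ≠ 0` with `D₀ + (f) = E' - nQ`. -/
theorem mw_mv_exists (g : ℕ) (c : ℤ)
    (hR : ∀ D : Divisor K F, c ≤ Divisor.degree D →
      (Module.finrank K ↥(riemannRochSpace D) : ℤ) = Divisor.degree D + 1 - g)
    (n : ℕ) (hn : c + 1 ≤ (n : ℤ))
    (D₀ : Divisor K F) (hD₀ : Divisor.degree D₀ = 0) (S : Finset (Place K F)) :
    ∃ (Q : Place K F) (E' : Divisor K F) (f : F), Q ∉ S ∧ f ≠ 0 ∧ 0 ≤ E' ∧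
      Divisor.degree E' = n ∧ (∀ s ∈ S, E' s = 0) ∧
      D₀ + rt_div hx f = E' - Finsupp.single Q (n : ℤ) := by
  classical
  have hinf : Infinite (Place K F) := ffg_infinite_place hx
  have : Infinite K := IsAlgClosed.instInfinite
  obtain ⟨Q, hQ⟩ := Infinite.exists_notMem_finset S
  set A : Divisor K F := D₀ + Finsupp.single Q (n : ℤ) with hA
  have hdegA : Divisor.degree A = n := by
    rw [hA, map_add, hD₀, rt_degree_single hx, zero_add]
  have hlA : (Module.finrank K ↥(riemannRochSpace A) : ℤ) = n + 1 - g := by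
    rw [hR A (by rw [hdegA]; omega), hdegA]
  have hdegAs : ∀ s : Place K F, Divisor.degree (A - Finsupp.single s 1) = n - 1 := by
    intro s
    rw [map_sub, hdegA, rt_degree_single hx]
  have hlAs : ∀ s : Place K F,
      (Module.finrank K ↥(riemannRochSpace (A - Finsupp.single s 1)) : ℤ) = n - g := by
    intro s
    rw [hR _ (by rw [hdegAs]; omega), hdegAs]
    ring
  have hng : (g : ℤ) ≤ n := by
    have := hlAs Q
    have h0 : (0 : ℤ) ≤ (Module.finrank K ↥(riemannRochSpace (A - Finsupp.single Q 1)) : ℤ) :=
      Int.natCast_nonneg _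
    omega
  have hfinA := rt_L_finite hx A
  -- the family of proper subspaces
  let p : Option ↥S → Submodule K ↥(riemannRochSpace A) := fun o =>
    match o with
    | none => ⊥
    | some s => (riemannRochSpace (A - Finsupp.single s.1 1)).comap (riemannRochSpace A).subtype
  have hp : ∀ o, p o ≠ ⊤ := by
    intro o
    cases o with
    | none =>
      intro h
      have h1 : Module.finrank K ↥(⊥ : Submodule K ↥(riemannRochSpace A)) = 0 := finrank_bot _ _
      have h2 : Module.finrank K ↥(⊤ : Submodule K ↥(riemannRochSpace A))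
          = Module.finrank K ↥(riemannRochSpace A) := finrank_top _ _
      have h3 : (⊥ : Submodule K ↥(riemannRochSpace A)) = ⊤ := h
      rw [h3, h2] at h1
      rw [h1] at hlA
      push_cast at hlA
      omega
    | some s =>
      intro h
      have hle : riemannRochSpace A ≤ riemannRochSpace (A - Finsupp.single s.1 1) := by
        intro f hf
        have : (⟨f, hf⟩ : ↥(riemannRochSpace A)) ∈
            (riemannRochSpace (A - Finsupp.single s.1 1)).comap (riemannRochSpace A).subtype := by
          have h' : p (some s) = ⊤ := h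
          show (⟨f, hf⟩ : ↥(riemannRochSpace A)) ∈ p (some s)
          rw [h']
          trivial
        exact this
      have hfin' := rt_L_finite hx (A - Finsupp.single s.1 1)
      have := Submodule.finrank_mono hle
      have h1 := hlAs s.1
      have h2 : (Module.finrank K ↥(riemannRochSpace A) : ℤ) ≤
          (Module.finrank K ↥(riemannRochSpace (A - Finsupp.single s.1 1)) : ℤ) := by
        exact_mod_cast this
      omega
  obtain ⟨⟨f, hfA⟩, hf⟩ := Submodule.exists_forall_notMem_of_forall_ne_top p hp
  have hf0 : f ≠ 0 := by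
    intro h0
    apply hf none
    show (⟨f, hfA⟩ : ↥(riemannRochSpace A)) ∈ (⊥ : Submodule K ↥(riemannRochSpace A))
    rw [Submodule.mem_bot]
    exact Subtype.ext h0
  have hford := (rt_mem_L_iff hf0).mp hfA
  set E' : Divisor K F := A + rt_div hx f with hE'
  have hEnn : 0 ≤ E' := by
    rw [Finsupp.le_def]
    intro v
    have := hford v
    rw [Finsupp.zero_apply, hE', Finsupp.add_apply, rt_div_apply]
    omega
  refine ⟨Q, E', f, hQ, hf0, hEnn, ?_, ?_, ?_⟩
  · rw [hE', map_add, hdegA, rt_degree_div, add_zero]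
  · intro s hs
    by_contra hne
    have hpos : 1 ≤ E' s := by
      have := Finsupp.le_def.mp hEnn s
      rw [Finsupp.zero_apply] at this
      omega
    apply hf (some ⟨s, hs⟩)
    show f ∈ riemannRochSpace (A - Finsupp.single s 1)
    rw [rt_mem_L_iff hf0]
    intro v
    by_cases hv : v = s
    · subst hv
      rw [hE', Finsupp.add_apply, rt_div_apply] at hpos
      rw [Finsupp.sub_apply, Finsupp.single_eq_same]
      omega
    · have hsv : (Finsupp.single s (1 : ℤ)) v = 0 := by
        rw [Finsupp.single_apply, if_neg (Ne.symm hv)]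
      have := hford v
      rw [Finsupp.sub_apply, hsv, sub_zero]
      exact this
  · rw [hE', hA]
    abel

end generic

/-- the norm of an effective divisor is its degree -/
theorem mw_mv_norm_of_nonneg (N : ℕ) [NeZero N] {E : mw_Div N} (hE : 0 ≤ E) :
    (mw_norm E : ℤ) = Divisor.degree E := by
  rw [rt_degree_eq_sum (rt_isSepGen_jBar N) E E.support (Finset.Subset.refl _)]
  unfold mw_norm
  push_cast
  refine Finset.sum_congr rfl fun P _ => ?_
  have := Finsupp.le_def.mp hE P
  rw [Finsupp.zero_apply] at this
  exact abs_of_nonneg this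

theorem mw_mv_norm_single_le {N : ℕ} (Q : mw_X N) (n : ℕ) :
    mw_norm (Finsupp.single Q (n : ℤ) : mw_Div N) ≤ n := by
  classical
  rw [mw_bil_norm_eq _ {Q} Finsupp.support_single_subset, Finset.sum_singleton,
    Finsupp.single_eq_same, Int.natAbs_natCast]

/-- **[MOVE]** every class has a representative of bounded norm avoiding a given finite set. -/
theorem mw_mv (N : ℕ) [NeZero N] : mw_SeamMOVE N := by
  classical
  have hx := rt_isSepGen_jBar N
  obtain ⟨g, c, hR⟩ := rt_riemann_fbar N
  obtain ⟨n, hn⟩ : ∃ n : ℕ, c + 1 ≤ (n : ℤ) :=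
    ⟨(max (c + 1) 0).toNat, by rw [Int.toNat_of_nonneg (le_max_right _ _)]; exact le_max_left _ _⟩
  refine ⟨2 * n, fun a S => ?_⟩
  obtain ⟨D₀, rfl⟩ := Pic0.mk_surjective a
  obtain ⟨Q, E', f, hQ, hf0, hEnn, hdeg, hES, hEq⟩ :=
    mw_mv_exists hx g c (fun D hD => (hR D).2 hD) n hn D₀.1 D₀.2 S
  have hmem : E' - Finsupp.single Q (n : ℤ) ∈ Divisor.degZero (K := mw_K) (F := mw_F N) := by
    rw [← hEq, Divisor.mem_degZero, map_add, rt_degree_div, add_zero]
    exact D₀.2
  refine ⟨⟨E' - Finsupp.single Q (n : ℤ), hmem⟩, ?_, ?_, ?_⟩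
  · show Pic0.mk _ = Pic0.mk D₀
    refine QuotientAddGroup.eq.2 ?_
    rw [AddSubgroup.mem_addSubgroupOf]
    have : ((-(⟨E' - Finsupp.single Q (n : ℤ), hmem⟩ : mw_Div0 N) + D₀ : mw_Div0 N) : mw_Div N)
        = rt_div hx f⁻¹ := by
      rw [rt_div_inv]
      show -(E' - Finsupp.single Q (n : ℤ)) + D₀.1 = _
      rw [← hEq]
      abel
    rw [this]
    exact rt_div_isPrincipal hx (inv_ne_zero hf0)
  · show mw_norm (E' - Finsupp.single Q (n : ℤ)) ≤ 2 * n
    have h1 : mw_norm E' = n := by
      have := mw_mv_norm_of_nonneg N hEnn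
      rw [hdeg] at this
      exact_mod_cast this
    have h2 := mw_mv_norm_single_le Q n
    have h3 := mw_bil_norm_sub_le E' (Finsupp.single Q (n : ℤ))
    omega
  · show Disjoint (E' - Finsupp.single Q (n : ℤ)).support S
    rw [Finset.disjoint_left]
    intro P hP hPS
    rw [Finsupp.mem_support_iff] at hP
    apply hP
    have hPQ : Q ≠ P := fun h => hQ (h ▸ hPS)
    rw [Finsupp.sub_apply, hES P hPS, Finsupp.single_apply, if_neg hPQ, sub_zero]

end Fermat.Agent.MW
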