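/-
Project MW (S17), arithmetic side, leaf **[HM]**: `mw_hm : mw_SeamHM` (Hermite–Minkowski in
character form).  Prefix `mw_hm_`.

For a number field `L ⊆ Q̄` and a finite set `S` of primes there is ONE number field `M ⊇ L` such
that every continuous character `χ : Gal(Q̄/L) → ℤ/2` unramified outside `S` is trivial on
`Gal(Q̄/M)`.

Route (Kummer theory + `S`-units + class group, all inputs on main):
* `S' ⊇ S` with `Cl_{S'}(L) = 1` (S55 `ie_exists_ClS_trivial`), `M := L(√E_{S'})`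
  (`kaf_kummerField 2 L S'`, finite by the Dirichlet `S`-unit theorem inside S55/SUnit);
* `mw_hm_exists_kummer`: `χ(σ) = σ(b)/b` for some `b ∈ Q̄ˣ` with `b² ∈ L` (Mathlib's Hilbert 90 at
  a finite Galois level `K'/L`);
* `mw_hm_even`: if the inertia group at a place `A` fixes `b`, then `d = b²` has even order at the
  prime of `L` below `A` (the inertia criterion `ffx_ic_nf` of FF/InertiaCore.lean for
  `L ⊆ L(b) ⊆ K'`: `e(L(b)/L) = 1`, and `ord(d) = 2 ord(b)` in `L(b)`);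
* `mw_hm_exists_unit`: with `Cl_{S'} = 1`, `d = u · a²`, `u` an `S'`-unit; so `b/a ∈ √E_{S'} ⊆ M`.
-/
import Fermat.Agent.MW.SeamsArith
import Fermat.Agent.FF.InertiaCore
import Fermat.Agent.S55.Kummer.AbsField
import Fermat.Agent.S55.Idele.EnlargeS

set_option autoImplicit false
set_option linter.style.haveILetI false
set_option linter.unusedSectionVars false

open Pointwise NumberField IntermediateField IsDedekindDomain

namespace Fermat.Agent.MW

open Fermat.Agent.S55 Fermat.Agent.FF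

local notation "Qbar" => AlgebraicClosure ℚ
local notation "GQ" => (AlgebraicClosure ℚ ≃ₐ[ℚ] AlgebraicClosure ℚ)

/-- `ℤ/2 → {±1}`. -/
def mw_hm_sgn (M : Type*) [Monoid M] [HasDistribNeg M] : Multiplicative (ZMod 2) →* M where
  toFun z := if z = 1 then 1 else -1
  map_one' := by simp
  map_mul' := by
    have key : ∀ x : Multiplicative (ZMod 2), x = 1 ∨ x = Multiplicative.ofAdd 1 := by decide
    have h1 : (Multiplicative.ofAdd (1 : ZMod 2)) ≠ 1 := by decide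
    have h2 : (Multiplicative.ofAdd (1 : ZMod 2)) * (Multiplicative.ofAdd (1 : ZMod 2)) = 1 := by
      decide
    intro x y
    rcases key x with rfl | rfl <;> rcases key y with rfl | rfl <;> simp [h1, h2]

theorem mw_hm_sgn_apply (M : Type*) [Monoid M] [HasDistribNeg M] (z : Multiplicative (ZMod 2)) :
    mw_hm_sgn M z = if z = 1 then 1 else -1 := rfl

section Galois

variable {L K' : IntermediateField ℚ Qbar} [Normal ℚ K'] [FiniteDimensional ℚ K'] (h : L ≤ K')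

/-- `K'/L` is Galois. -/
theorem mw_hm_isGalois : letI := kaf_inclAlgebra h; IsGalois ↥L ↥K' := by
  letI := kaf_inclAlgebra h
  haveI : IsScalarTower ℚ ↥L ↥K' := IsScalarTower.of_algebraMap_eq (fun x => rfl)
  haveI : IsGalois ℚ K' := ⟨⟩
  exact IsGalois.tower_top_of_isGalois ℚ L K'

theorem mw_hm_finiteDimensional : letI := kaf_inclAlgebra h; FiniteDimensional ↥L ↥K' := by
  letI := kaf_inclAlgebra h
  haveI : IsScalarTower ℚ ↥L ↥K' := IsScalarTower.of_algebraMap_eq (fun x => rfl)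
  exact FiniteDimensional.right ℚ L K'

/-- every element of `Gal(Q̄/L)` induces an element of `Gal(K'/L)`. -/
theorem mw_hm_exists_rel (σ : GQ) (hσ : σ ∈ L.fixingSubgroup) :
    letI := kaf_inclAlgebra h
    ∃ g : ↥K' ≃ₐ[↥L] ↥K', ∀ x : ↥K', ((g x : ↥K') : Qbar) = σ (x : Qbar) := by
  letI := kaf_inclAlgebra h
  have h1 : AlgEquiv.restrictNormalHom K' σ ∈ (kaf_resScalars h).range := by
    rw [← kaf_rel_eq_range h]
    exact ⟨σ, hσ, rfl⟩
  obtain ⟨g, hg⟩ := h1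
  refine ⟨g, fun x => ?_⟩
  rw [← kaf_resScalars_apply h g x, hg]
  exact kaf_restrict_coe K' σ x

/-- every element of `Gal(K'/L)` is induced by an element of `Gal(Q̄/L)`. -/
theorem mw_hm_exists_lift (g : letI := kaf_inclAlgebra h; ↥K' ≃ₐ[↥L] ↥K') :
    ∃ σ : GQ, σ ∈ L.fixingSubgroup ∧ ∀ x : ↥K', σ (x : Qbar) = ((g x : ↥K') : Qbar) := by
  letI := kaf_inclAlgebra h
  have h1 : kaf_resScalars h g ∈ L.fixingSubgroup.map (AlgEquiv.restrictNormalHom K') := by
    rw [kaf_rel_eq_range h]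
    exact ⟨g, rfl⟩
  obtain ⟨σ, hσ, hσg⟩ := h1
  refine ⟨σ, hσ, fun x => ?_⟩
  rw [← kaf_restrict_coe K' σ x, hσg]
  rfl

end Galois

set_option synthInstance.maxHeartbeats 400000 in
set_option maxHeartbeats 1000000 in
/-- **Kummer theory for quadratic characters.**  A continuous character `χ : Gal(Q̄/L) → ℤ/2` is
`σ ↦ σ(b)/b` for some `b ∈ Q̄ˣ` with `b² ∈ L`. -/
theorem mw_hm_exists_kummer (L : IntermediateField ℚ Qbar)
    (χ : ↥L.fixingSubgroup →* Multiplicative (ZMod 2))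
    (K : IntermediateField ℚ Qbar) [FiniteDimensional ℚ L] [FiniteDimensional ℚ K]
    (hχ : ∀ σ : ↥L.fixingSubgroup, (σ : GQ) ∈ K.fixingSubgroup → χ σ = 1) :
    ∃ b : Qbar, b ≠ 0 ∧ b ^ 2 ∈ L ∧
      ∀ σ : ↥L.fixingSubgroup, (σ : GQ) b = if χ σ = 1 then b else -b := by
  classical
  haveI := kaf_qbar_normal
  haveI : FiniteDimensional ℚ ↥(L ⊔ K) := IntermediateField.finiteDimensional_sup L K
  let K' : IntermediateField ℚ Qbar := normalClosure ℚ ↥(L ⊔ K) Qbar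
  haveI : FiniteDimensional ℚ K' := normalClosure.is_finiteDimensional ℚ ↥(L ⊔ K) Qbar
  haveI : Normal ℚ K' := normalClosure.normal ℚ ↥(L ⊔ K) Qbar
  have hLK' : L ≤ K' := le_trans le_sup_left (le_normalClosure _)
  have hKK' : K ≤ K' := le_trans le_sup_right (le_normalClosure _)
  letI := kaf_inclAlgebra hLK'
  haveI := mw_hm_isGalois hLK'
  haveI := mw_hm_finiteDimensional hLK'
  -- `χ` depends only on the restriction to `K'`
  have P1 : ∀ σ τ : ↥L.fixingSubgroup,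
      (∀ x : ↥K', (σ : GQ) (x : Qbar) = (τ : GQ) (x : Qbar)) → χ σ = χ τ := by
    intro σ τ hστ
    have h1 : χ (σ⁻¹ * τ) = 1 := by
      apply hχ
      rw [IntermediateField.mem_fixingSubgroup_iff]
      intro x hx
      have h2 := hστ ⟨x, hKK' hx⟩
      show (σ : GQ)⁻¹ ((τ : GQ) x) = x
      rw [← h2]
      exact (σ : GQ).symm_apply_apply x
    rw [map_mul, map_inv, inv_mul_eq_one] at h1
    exact h1
  choose lift hliftL hlift using fun g : ↥K' ≃ₐ[↥L] ↥K' => mw_hm_exists_lift hLK' g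
  let χb : (↥K' ≃ₐ[↥L] ↥K') → Multiplicative (ZMod 2) := fun g => χ ⟨lift g, hliftL g⟩
  have P2 : ∀ (σ : ↥L.fixingSubgroup) (g : ↥K' ≃ₐ[↥L] ↥K'),
      (∀ x : ↥K', ((g x : ↥K') : Qbar) = (σ : GQ) (x : Qbar)) → χ σ = χb g := by
    intro σ g hg
    refine P1 σ ⟨lift g, hliftL g⟩ (fun x => ?_)
    rw [← hg x]
    exact (hlift g x).symm
  have P3 : ∀ g g' : ↥K' ≃ₐ[↥L] ↥K', χb (g * g') = χb g * χb g' := by
    intro g g'
    have h1 := P2 (⟨lift g, hliftL g⟩ * ⟨lift g', hliftL g'⟩) (g * g') (fun x => by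
      show (((g (g' x) : ↥K')) : Qbar) = (lift g) ((lift g') (x : Qbar))
      rw [hlift g' x, hlift g (g' x)])
    rw [← h1, map_mul]
  -- the cocycle
  let f : (↥K' ≃ₐ[↥L] ↥K') → (↥K')ˣ := fun g => mw_hm_sgn (↥K')ˣ (χb g)
  have hfix : ∀ (g : ↥K' ≃ₐ[↥L] ↥K') (z : Multiplicative (ZMod 2)),
      g • mw_hm_sgn (↥K')ˣ z = mw_hm_sgn (↥K')ˣ z := by
    intro g z
    rw [mw_hm_sgn_apply]
    split_ifs
    · exact smul_one g
    · apply Units.ext
      rw [AlgEquiv.smul_units_def]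
      simp
  have hf : groupCohomology.IsMulCocycle₁ f := by
    intro g g'
    show mw_hm_sgn (↥K')ˣ (χb (g * g')) = g • mw_hm_sgn (↥K')ˣ (χb g') * mw_hm_sgn (↥K')ˣ (χb g)
    rw [hfix, P3, map_mul, mul_comm]
  obtain ⟨β, hβ⟩ := groupCohomology.isMulCoboundary₁_of_isMulCocycle₁_of_aut_to_units f hf
  have hβ' : ∀ g : ↥K' ≃ₐ[↥L] ↥K', g (β : ↥K') = ((f g : (↥K')ˣ) : ↥K') * (β : ↥K') := by
    intro g
    have h1 := hβ g
    rw [div_eq_iff_eq_mul] at h1
    have h2 := congrArg (fun u : (↥K')ˣ => (u : ↥K')) h1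
    simpa [AlgEquiv.smul_units_def] using h2
  have hfval : ∀ g : ↥K' ≃ₐ[↥L] ↥K', ((f g : (↥K')ˣ) : ↥K') = if χb g = 1 then 1 else -1 := by
    intro g
    show ((mw_hm_sgn (↥K')ˣ (χb g) : (↥K')ˣ) : ↥K') = _
    rw [mw_hm_sgn_apply]
    split_ifs <;> simp
  refine ⟨((β : ↥K') : Qbar), ?_, ?_, ?_⟩
  · intro h0
    exact β.ne_zero (Subtype.ext h0)
  · -- `β²` is fixed by `Gal(K'/L)`
    have h1 : ((β : ↥K') ^ 2) ∈ Set.range (algebraMap ↥L ↥K') := by
      rw [IsGalois.mem_range_algebraMap_iff_fixed]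
      intro g
      rw [map_pow, hβ', hfval]
      split_ifs <;> ring
    obtain ⟨x, hx⟩ := h1
    have h2 : ((β : ↥K') : Qbar) ^ 2 = (x : Qbar) := by
      have := congrArg (fun z : ↥K' => (z : Qbar)) hx
      simp only [kaf_inclAlgebra_coe] at this
      rw [this]
      simp
    rw [h2]
    exact x.2
  · intro σ
    obtain ⟨g, hg⟩ := mw_hm_exists_rel hLK' (σ : GQ) σ.2
    have h1 := P2 σ g hg
    rw [← hg (β : ↥K'), hβ', hfval, h1]
    split_ifs <;> simp

set_option synthInstance.maxHeartbeats 400000 in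
set_option maxHeartbeats 1000000 in
/-- an element of `Gal(K'/L)` in the inertia group of `𝔪_A ∩ 𝓞 K'` is induced by an element of
`Gal(Q̄/L) ∩ I_A`. -/
theorem mw_hm_exists_lift_inertia {L K' : IntermediateField ℚ Qbar} [Normal ℚ K']
    [FiniteDimensional ℚ K'] (h : L ≤ K') {p : ℕ} (hp : p.Prime) (A : ValuationSubring Qbar)
    (hA : A.LiesOverPrime p)
    (g : letI := kaf_inclAlgebra h; ↥K' ≃ₐ[↥L] ↥K')
    (hg : letI := kaf_inclAlgebra h; haveI : NumberField ↥K' := ⟨⟩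
      g ∈ (pl_ideal K' A).inertia (↥K' ≃ₐ[↥L] ↥K')) :
    ∃ σ : GQ, σ ∈ L.fixingSubgroup ∧ σ ∈ A.inertiaSubgroupIn ℚ ∧
      ∀ x : ↥K', σ (x : Qbar) = ((g x : ↥K') : Qbar) := by
  letI := kaf_inclAlgebra h
  haveI : NumberField ↥K' := ⟨⟩
  haveI : IsGalois ℚ ↥K' := ⟨⟩
  have h1 : kaf_resScalars h g ∈ (pl_ideal K' A).toAddSubgroup.inertia (↥K' ≃ₐ[ℚ] ↥K') := by
    intro x
    exact hg x
  rw [← pl_map_inertia K' A hp hA] at h1
  obtain ⟨σ, hσ, hσg⟩ := h1
  have hx : ∀ x : ↥K', σ (x : Qbar) = ((g x : ↥K') : Qbar) := by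
    intro x
    rw [← kaf_restrict_coe K' σ x, hσg]
    rfl
  refine ⟨σ, ?_, hσ, hx⟩
  rw [IntermediateField.mem_fixingSubgroup_iff]
  intro y hy
  have h2 := hx ⟨y, h hy⟩
  have h3 : g (algebraMap ↥L ↥K' ⟨y, hy⟩) = algebraMap ↥L ↥K' ⟨y, hy⟩ := g.commutes _
  rw [h2]
  exact congrArg Subtype.val h3

set_option synthInstance.maxHeartbeats 400000 in
set_option maxHeartbeats 1000000 in
/-- if the inertia group at `A` (inside `Gal(Q̄/L)`) fixes a square root `b` of `d ∈ Lˣ`, then `d`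
has even order at the prime of `L` below `A`. -/
theorem mw_hm_even (L : IntermediateField ℚ Qbar) [NumberField L] (b : Qbar) (hb0 : b ≠ 0)
    (d : (↥L)ˣ) (hd : (((d : ↥L)) : Qbar) = b ^ 2)
    (p : ℕ) (hp : p.Prime) (A : ValuationSubring Qbar) (hA : A.LiesOverPrime p)
    (hfix : ∀ σ : GQ, σ ∈ L.fixingSubgroup → σ ∈ A.inertiaSubgroupIn ℚ → σ b = b) :
    Even (id_ordZ ↥L (pl_prime L A hp hA) d) := by
  classical
  haveI := kaf_qbar_normal
  have hbint : IsIntegral ℚ b := ((AlgebraicClosure.isAlgebraic ℚ).isAlgebraic b).isIntegral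
  haveI : FiniteDimensional ℚ ↥(ℚ⟮b⟯) := adjoin.finiteDimensional hbint
  haveI : FiniteDimensional ℚ ↥(L ⊔ ℚ⟮b⟯) := IntermediateField.finiteDimensional_sup L ℚ⟮b⟯
  let K' : IntermediateField ℚ Qbar := normalClosure ℚ ↥(L ⊔ ℚ⟮b⟯) Qbar
  haveI : FiniteDimensional ℚ K' := normalClosure.is_finiteDimensional ℚ ↥(L ⊔ ℚ⟮b⟯) Qbar
  haveI : Normal ℚ K' := normalClosure.normal ℚ ↥(L ⊔ ℚ⟮b⟯) Qbar
  have hLK' : L ≤ K' := le_trans le_sup_left (le_normalClosure _)
  have hbK' : b ∈ K' :=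
    (le_trans le_sup_right (le_normalClosure _) : ℚ⟮b⟯ ≤ K') (mem_adjoin_simple_self ℚ b)
  letI := kaf_inclAlgebra hLK'
  haveI := mw_hm_isGalois hLK'
  haveI := mw_hm_finiteDimensional hLK'
  haveI : NumberField ↥K' := ⟨⟩
  let b' : ↥K' := ⟨b, hbK'⟩
  let F : IntermediateField ↥L ↥K' := (↥L)⟮b'⟯
  -- the inertia group fixes `F`
  have hin : (pl_ideal K' A).inertia (↥K' ≃ₐ[↥L] ↥K') ≤
      fixingSubgroup (↥K' ≃ₐ[↥L] ↥K') (F : Set ↥K') := by
    intro g hg
    obtain ⟨σ, hσL, hσI, hσ⟩ := mw_hm_exists_lift_inertia hLK' hp A hA g hg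
    have hgb : g b' = b' := by
      apply Subtype.ext
      rw [← hσ b']
      exact hfix σ hσL hσI
    rw [_root_.mem_fixingSubgroup_iff]
    intro y hy
    obtain ⟨r, s, rfl⟩ := (IntermediateField.mem_adjoin_simple_iff ↥L y).1 hy
    show g (Polynomial.aeval b' r / Polynomial.aeval b' s) = _
    rw [map_div₀, ← Polynomial.aeval_algHom_apply, ← Polynomial.aeval_algHom_apply]
    show Polynomial.aeval (g b') r / Polynomial.aeval (g b') s = _
    rw [hgb]
  have he := (ffx_ic_nf ↥L ↥K' F (pl_ideal K' A)).2 hin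
  -- the primes
  let wK' : HeightOneSpectrum (𝓞 ↥K') := pl_prime K' A hp hA
  let w : HeightOneSpectrum (𝓞 ↥F) := id_under ↥F ↥K' wK'
  have hwe : id_e ↥L ↥F w = 1 := by
    rw [id_e, Ideal.ramificationIdx'_eq_ramificationIdx (id_under ↥L ↥F w).asIdeal w.asIdeal
      (id_under ↥L ↥F w).ne_bot]
    exact he
  have hv : id_under ↥L ↥F w = pl_prime L A hp hA := by
    rw [id_under_trans ↥L ↥F ↥K' wK']
    apply HeightOneSpectrum.ext
    ext x
    rfl
  -- the unit `b` of `F`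
  have hbF : b' ∈ F := mem_adjoin_simple_self ↥L b'
  have hb'0 : (⟨b', hbF⟩ : ↥F) ≠ 0 := by
    intro h0
    apply hb0
    have := congrArg (fun z : ↥F => ((z : ↥K') : Qbar)) h0
    exact this
  let bF : (↥F)ˣ := Units.mk0 ⟨b', hbF⟩ hb'0
  have hmap : id_unitsMap ↥L ↥F d = bF ^ 2 := by
    apply Units.ext
    apply Subtype.ext
    apply Subtype.ext
    show (((d : ↥L)) : Qbar) = b ^ 2
    exact hd
  have h1 := id_ordZ_map ↥L ↥F w d
  rw [hmap, hwe, hv, pow_two, id_ordZ_mul] at h1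
  exact ⟨id_ordZ ↥F w bF, by push_cast at h1; linarith⟩

/-- if `Cl_{S'}(K) = 1`, an element with even order at all primes outside `S'` is an `S'`-unit
times a square. -/
theorem mw_hm_exists_unit (S' : Finset Nat.Primes) (K : Type) [Field K] [NumberField K]
    (hcl : (id_div S' K).range = ⊤) (d : Kˣ) (hd : ∀ v : id_P S' K, Even (id_ordZ K v.1 d)) :
    ∃ a : Kˣ, ∃ u ∈ id_ES S' K, d = u * a ^ 2 := by
  let D : id_I S' K :=
    Multiplicative.ofAdd ((id_divFun S' K d).mapRange (fun n : ℤ => n / 2) (by simp))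
  have hD : D ∈ (id_div S' K).range := by rw [hcl]; trivial
  obtain ⟨a, ha⟩ := hD
  refine ⟨a, d * (a ^ 2)⁻¹, ?_, by simp⟩
  rw [id_ES, MonoidHom.mem_ker, map_mul, map_inv, map_pow, ha]
  apply Multiplicative.toAdd.injective
  ext v
  obtain ⟨r, hr⟩ := hd v
  have h1 : (id_div S' K d).toAdd v = id_ordZ K v.1 d := rfl
  have h2 : D.toAdd v = id_ordZ K v.1 d / 2 := rfl
  show (id_div S' K d).toAdd v + -((2 : ℕ) • D.toAdd v) = 0
  rw [h1, h2, hr, nsmul_eq_mul]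
  push_cast
  omega

set_option synthInstance.maxHeartbeats 400000 in
set_option maxHeartbeats 1000000 in
/-- **[HM] Hermite–Minkowski, character form.** -/
theorem mw_hm : mw_SeamHM := by
  intro L hL S
  classical
  haveI : FiniteDimensional ℚ L := hL
  haveI : NumberField ↥L := ⟨⟩
  let S₀ : Finset Nat.Primes := S.subtype Nat.Prime
  obtain ⟨S', hSS', hcl⟩ := ie_exists_ClS_trivial S₀ ↥L
  haveI : Fact (Nat.Prime 2) := ⟨Nat.prime_two⟩
  have hζ : IsPrimitiveRoot (-1 : ↥L) 2 := IsPrimitiveRoot.neg_one 0 (by norm_num)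
  refine ⟨kaf_kummerField 2 L S', kaf_kummerField_finiteDimensional 2 L hζ,
    kaf_le_kummerField 2 L, ?_⟩
  rintro χ ⟨K, hK, hχK⟩ hunr σ hσM
  haveI := hK
  obtain ⟨b, hb0, hbL, hb⟩ := mw_hm_exists_kummer L χ K hχK
  have hd0 : (⟨b ^ 2, hbL⟩ : ↥L) ≠ 0 := by
    intro h0
    have := congrArg (fun z : ↥L => (z : Qbar)) h0
    exact hb0 ((pow_eq_zero_iff (two_ne_zero)).1 this)
  let d : (↥L)ˣ := Units.mk0 ⟨b ^ 2, hbL⟩ hd0
  have hev : ∀ v : id_P S' ↥L, Even (id_ordZ ↥L v.1 d) := by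
    intro v
    obtain ⟨p, hp, hpv⟩ := pl_exists_prime_mem L v.1
    have hpS : p ∉ S := by
      intro hpS
      exact v.2 ⟨p, hp⟩ (hSS' (Finset.mem_subtype.2 hpS)) hpv
    obtain ⟨A, hA, hAv⟩ := pl_exists_valuationSubring L v.1 hp hpv
    rw [← hAv]
    refine mw_hm_even L b hb0 d rfl p hp A hA ?_
    intro τ hτL hτI
    have h1 := hunr p hp hpS A hA ⟨τ, hτL⟩ hτI
    have h2 := hb ⟨τ, hτL⟩
    rw [if_pos h1] at h2
    exact h2
  obtain ⟨a, u, hu, hdua⟩ := mw_hm_exists_unit S' ↥L hcl d hev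
  have ha0 : (((a : (↥L)ˣ) : ↥L) : Qbar) ≠ 0 := by
    intro h0
    exact a.ne_zero (Subtype.ext h0)
  have hdua' : b ^ 2 = (((u : (↥L)ˣ) : ↥L) : Qbar) * (((a : (↥L)ˣ) : ↥L) : Qbar) ^ 2 := by
    have := congrArg (fun z : (↥L)ˣ => (((z : ↥L)) : Qbar)) hdua
    simpa [d] using this
  have hroot : b / (((a : (↥L)ˣ) : ↥L) : Qbar) ∈ kaf_roots 2 L S' := by
    refine ⟨u, hu, ?_⟩
    rw [div_pow, hdua']
    field_simp
  have hbM : b ∈ kaf_kummerField 2 L S' := by
    have h1 := kaf_roots_subset_kummerField 2 L hroot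
    have h2 : (((a : (↥L)ˣ) : ↥L) : Qbar) ∈ kaf_kummerField 2 L S' :=
      kaf_le_kummerField 2 L ((a : (↥L)ˣ) : ↥L).2
    have h3 : b = b / (((a : (↥L)ˣ) : ↥L) : Qbar) * (((a : (↥L)ˣ) : ↥L) : Qbar) := by
      field_simp
    rw [h3]
    exact mul_mem h1 h2
  have h3 := hb σ
  have h4 : (σ : GQ) b = b := by
    have := (IntermediateField.mem_fixingSubgroup_iff _ _).1 hσM
    exact this b hbM
  by_contra hne
  rw [if_neg hne, h4] at h3
  apply hb0
  have h5 : (2 : Qbar) * b = 0 := by linear_combination h3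
  rcases mul_eq_zero.1 h5 with h6 | h6
  · exact absurd h6 two_ne_zero
  · exact h6

end Fermat.Agent.MW
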