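import Fermat.Agent.MW.SeamsArith
import Fermat.Agent.JT3.ES.Smooth
import Fermat.Agent.JT3.Tate.JZeroLattice

set_option autoImplicit false

namespace Fermat.Agent.MW

open ModularCurve AlgebraicCurve Fermat.Agent.JT3

/-- (SM) is on main: `egs_exists_fixing`. -/
theorem mw_in_smooth (N : ℕ) [NeZero N] : mw_SeamSmooth N := by
  intro x
  obtain ⟨L, hL, h⟩ := egs_exists_fixing N x
  exact ⟨L, hL, fun σ hσ => h σ fun y hy => hσ ⟨y, hy⟩⟩

/-- (T2) is on main: `tj_finite`. -/
theorem mw_in_tors2 (N : ℕ) [NeZero N] : mw_SeamTors2 N := by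
  have : Fact (Nat.Prime 2) := ⟨Nat.prime_two⟩
  have h := tj_finite N 2 1
  have : {z : JZero N | 2 • z = 0} = {z : JZero N | 2 ^ 1 • z = 0} := by
    ext z; simp
  rw [mw_SeamTors2, this]
  exact Set.finite_coe_iff.mp h

end Fermat.Agent.MW
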