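/-
Project MW (S17), arithmetic side, leaf [KUM] (helper19; architect helper7, finding #1718):

  `mw_kum_half : mw_SeamSmooth N → mw_SeamTors2 N → mw_SeamUnr N → mw_SeamHM → mw_SeamHalf N`.

`L` := a number field over which the (finitely many) `2`-torsion classes of `J₀(N)` are rational.
For a rational class `x` and a half `y` (`2 y = x`) the Kummer map `c_y : G_L → J[2]`,
`τ ↦ τ y - y`, is additive (`G_L` fixes `J[2]`), locally constant (SM) and trivial on the inertia
groups at the primes `p ∤ 2N` (UNR).  Composing with the functionals `ψ` of the `𝔽₂`-space `J[2]`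
gives quadratic characters of `G_L` unramified outside `2N`; Hermite–Minkowski (HM) kills them all
over ONE number field `M ⊇ L`; the functionals separate the points of `J[2]`, so `c_y = 0` on `G_M`.
Prefix `mw_kum_`.
-/
import Mathlib
import Fermat.Agent.MW.SeamsArith

set_option autoImplicit false
set_option linter.style.haveILetI false

noncomputable section

namespace Fermat.Agent.MW

open ModularCurve AlgebraicCurve

local notation "Qbar" => AlgebraicClosure ℚ

/-- Finitely many classes with open stabilisers are all fixed by `Gal(Q̄/L)` for one number field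
`L`. -/
theorem mw_kum_exists_field {N : ℕ} (hSM : mw_SeamSmooth N) (s : Finset (JZero N)) :
    ∃ L : IntermediateField ℚ Qbar, FiniteDimensional ℚ L ∧
      ∀ z ∈ s, ∀ σ ∈ L.fixingSubgroup, σ • z = z := by
  classical
  induction s using Finset.induction_on with
  | empty =>
    exact ⟨⊥, inferInstance, fun z hz => absurd hz (Finset.notMem_empty z)⟩
  | insert a s _ ih =>
    obtain ⟨L, hL, h⟩ := ih
    obtain ⟨K, hK, hKa⟩ := hSM a
    haveI := hL
    haveI := hK
    refine ⟨L ⊔ K, IntermediateField.finiteDimensional_sup L K, fun z hz σ hσ => ?_⟩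
    rcases Finset.mem_insert.mp hz with rfl | hz
    · exact hKa σ (IntermediateField.fixingSubgroup_le le_sup_right hσ)
    · exact h z hz σ (IntermediateField.fixingSubgroup_le le_sup_left hσ)

/-- The `2`-torsion of an abelian group, as a subgroup. -/
def mw_kum_two (J : Type*) [AddCommGroup J] : AddSubgroup J :=
  (nsmulAddMonoidHom (α := J) 2).ker

theorem mw_kum_mem_two {J : Type*} [AddCommGroup J] {z : J} : z ∈ mw_kum_two J ↔ 2 • z = 0 :=
  Iff.rfl

/-- The additive functionals with values in `ℤ/2` separate the points of the `2`-torsion. -/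
theorem mw_kum_exists_functional {J : Type*} [AddCommGroup J] (z : mw_kum_two J) (hz : z ≠ 0) :
    ∃ ψ : mw_kum_two J →+ ZMod 2, ψ z ≠ 0 := by
  haveI : Fact (Nat.Prime 2) := ⟨Nat.prime_two⟩
  letI : Module (ZMod 2) (mw_kum_two J) :=
    AddCommGroup.zmodModule (n := 2) fun x => Subtype.ext x.2
  by_contra hcon
  push Not at hcon
  exact hz ((Module.forall_dual_apply_eq_zero_iff (ZMod 2) z).mp fun φ =>
    hcon φ.toAddMonoidHom)

/-- **[KUM]**: halves of rational classes are rational over one number field. -/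
theorem mw_kum_half (N : ℕ) [NeZero N] (hSM : mw_SeamSmooth N) (hT : mw_SeamTors2 N)
    (hU : mw_SeamUnr N) (hHM : mw_SeamHM) : mw_SeamHalf N := by
  classical
  -- the field of the `2`-torsion
  obtain ⟨L, hLfd, hL⟩ := mw_kum_exists_field hSM hT.toFinset
  have hL' : ∀ z : JZero N, 2 • z = 0 → ∀ σ ∈ L.fixingSubgroup, σ • z = z := fun z hz =>
    hL z (hT.mem_toFinset.mpr hz)
  -- Hermite–Minkowski for the primes dividing `2 N`
  obtain ⟨M, hMfd, hLM, hM⟩ := hHM L hLfd (2 * N).primeFactors
  refine ⟨M, hMfd, fun x hx y hy σ hσ => ?_⟩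
  have hσL : σ ∈ L.fixingSubgroup := IntermediateField.fixingSubgroup_le hLM hσ
  -- the Kummer map of `y`
  have hmem : ∀ τ : mw_G, τ • y - y ∈ mw_kum_two (JZero N) := by
    intro τ
    rw [mw_kum_mem_two]
    have h1 : 2 • (τ • y) = τ • (2 • y) := by rw [two_nsmul, two_nsmul, smul_add]
    rw [nsmul_sub, h1, hy, mw_mem_Gamma.1 hx τ, sub_self]
  let c : ↥L.fixingSubgroup → mw_kum_two (JZero N) := fun τ => ⟨(τ : mw_G) • y - y, hmem τ⟩
  have hc1 : c 1 = 0 := Subtype.ext (by
    show ((1 : ↥L.fixingSubgroup) : mw_G) • y - y = 0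
    rw [Subgroup.coe_one, one_smul, sub_self])
  have hcmul : ∀ τ τ' : ↥L.fixingSubgroup, c (τ * τ') = c τ + c τ' := by
    intro τ τ'
    refine Subtype.ext ?_
    show ((τ * τ' : ↥L.fixingSubgroup) : mw_G) • y - y =
      ((τ : mw_G) • y - y) + ((τ' : mw_G) • y - y)
    have h1 : (τ : mw_G) • ((τ' : mw_G) • y - y) = (τ' : mw_G) • y - y :=
      hL' _ (mw_kum_mem_two.mp (hmem τ')) τ τ.2
    rw [Subgroup.coe_mul, mul_smul]
    rw [smul_sub] at h1
    rw [← h1]
    abel
  by_contra hne
  have hcσ : c ⟨σ, hσL⟩ ≠ 0 := fun h => hne (sub_eq_zero.mp (congrArg Subtype.val h))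
  obtain ⟨ψ, hψ⟩ := mw_kum_exists_functional _ hcσ
  -- the quadratic character
  let χ : ↥L.fixingSubgroup →* Multiplicative (ZMod 2) :=
    { toFun := fun τ => Multiplicative.ofAdd (ψ (c τ))
      map_one' := by rw [hc1, map_zero]; rfl
      map_mul' := fun τ τ' => by rw [hcmul, map_add]; rfl }
  have hχ : ∀ τ : ↥L.fixingSubgroup, (τ : mw_G) • y = y → χ τ = 1 := by
    intro τ hτ
    have h1 : c τ = 0 := Subtype.ext (sub_eq_zero.mpr hτ)
    show Multiplicative.ofAdd (ψ (c τ)) = 1
    rw [h1, map_zero]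
    rfl
  have key := hM χ
    (by
      obtain ⟨K, hK, hKy⟩ := hSM y
      exact ⟨K, hK, fun τ hτ => hχ τ (hKy _ hτ)⟩)
    (by
      intro p hp hpS P hP τ hτ
      have hpN : ¬ p ∣ 2 * N := fun h =>
        hpS (Nat.mem_primeFactors.mpr ⟨hp, h, Nat.mul_ne_zero two_ne_zero (NeZero.ne N)⟩)
      exact hχ τ (hU p hp hpN P hP _ hτ x hx y hy))
    ⟨σ, hσL⟩ hσ
  exact hψ (Multiplicative.ofAdd.injective key)

end Fermat.Agent.MW
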