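/-
Project MW (S17), arithmetic leaf **[UNR]** (architect helper7, #1718) and the assembly of (HALF):

* `mw_unr N : mw_SeamUnr N`       : a half `y` of a rational class of `J₀(N)` is fixed by the inertia
                                    groups at the primes `p ∤ 2N` (`σ y - y` is `2`-torsion with zero
                                    reduction: node E + S18 + `egr_red_inertia`);
* `mw_unr_half N : mw_SeamHalf N`  (with `mw_kum_half`, helper18's `mw_in_smooth`, `mw_in_tors2`,
                                    `mw_hm`): UNCONDITIONAL;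
* `mw_unr_wmw N : mw_SeamDiv2 N → mw_SeamWMW N`: weak Mordell–Weil hangs on (DIV2) alone.
Prefix `mw_unr_`.
-/
import Mathlib
import Fermat.Agent.MW.SeamsArith
import Fermat.Agent.MW.Kummer
import Fermat.Agent.MW.Assembly
import Fermat.Agent.MW.InputsJT3
import Fermat.Agent.MW.HermiteMinkowski
import Fermat.Agent.JT3.ES.Torsion
import Fermat.Agent.JT3.Tate.Inputs

set_option autoImplicit false

noncomputable section

namespace Fermat.Agent.MW

open ModularCurve AlgebraicCurve Fermat.Agent.JT3

/-- **[UNR]** a half of a rational class is fixed by the inertia groups at the primes `p ∤ 2N`. -/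
theorem mw_unr (N : ℕ) [NeZero N] : mw_SeamUnr N := by
  intro p hp hpN P hP σ hσ x hx y hy
  have hp2 : ¬ p ∣ 2 := fun h => hpN (Dvd.dvd.mul_right h N)
  have hpN' : ¬ p ∣ N := fun h => hpN (Dvd.dvd.mul_left h 2)
  have h := tji_nodeE N p hp hpN' P hP
  have hR := est_riemann_fbar N
  have hx' : σ • x = x := mw_mem_Gamma.1 hx σ
  have h0 : σ • y - y = 0 := by
    refine tji_S18 N p hp hpN' P hP h 2 hp2 _ ?_ ?_
    · rw [nsmul_sub, smul_comm 2 σ y, hy, hx', sub_self]
    · rw [map_sub, egr_red_inertia h hR σ hσ y, sub_self]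
  exact sub_eq_zero.mp h0

/-- **(HALF)** is a theorem: ONE number field over which all halves of rational classes are
defined (`mw_kum_half` + `mw_in_smooth` + `mw_in_tors2` + `mw_unr` + `mw_hm`). -/
theorem mw_unr_half (N : ℕ) [NeZero N] : mw_SeamHalf N :=
  mw_kum_half N (mw_in_smooth N) (mw_in_tors2 N) (mw_unr N) mw_hm

/-- weak Mordell–Weil at `2` from (DIV2) alone. -/
theorem mw_unr_wmw (N : ℕ) [NeZero N] (hD : mw_SeamDiv2 N) : mw_SeamWMW N :=
  mw_wmw_of_half hD (mw_in_tors2 N) (mw_unr_half N)

end Fermat.Agent.MW
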