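/-
Project MW (S17): THE FINAL WIRING (architect helper7).  All leaves are plugged in:
`mw_final_S17 N hN hN5` is S17.  Prefix `mw_final_`.
-/
import Fermat.Agent.MW.HeightAssembly2
import Fermat.Agent.MW.Unramified
import Fermat.Agent.MW.Div2.Main
import Fermat.Agent.MW.Abstract
import Fermat.Agent.MW.AbsHeight
import Fermat.Agent.MW.Ref
import Fermat.Agent.MW.Inf
import Fermat.Agent.MW.MinRep
import Fermat.Agent.MW.Move
import Fermat.Agent.MW.Core.KLmu
import Fermat.Agent.MW.Core.GM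
import Fermat.Agent.MW.Core.SYL
import Fermat.Agent.MW.Core.RESa
import Fermat.Agent.MW.Core.RESb.Closed
import Fermat.Agent.MW.Core.EMB
import Fermat.Agent.MW.Core.INC
import Fermat.Agent.MW.Global.POS1
import Fermat.Agent.MW.Global.North
import Fermat.Agent.MW.Global.RRK
import Fermat.Agent.MW.Global.SPEC
import Fermat.Agent.MW.Global.Data
import Fermat.Agent.MW.Global.GKL
import Fermat.Agent.MW.Global.HY
import Fermat.Agent.MW.Global.LEI
import Fermat.Agent.MW.Global.EVOFF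
import Fermat.Agent.MW.Global.DIAG
import Fermat.Agent.MW.Global.EXP
import Fermat.Agent.MW.Global.BLlow
import Fermat.Agent.MW.Global.HG
import Fermat.Agent.MW.Global.AMPLE
import Fermat.Agent.MW.Global.NAIVELB
import Fermat.Agent.MW.Global.NStab
import Fermat.Agent.MW.Global.NPts
import Fermat.Agent.MW.Global.NCBD
import Fermat.Agent.MW.Global.HXClosed
import Fermat.Agent.MW.Global.VDMC

set_option autoImplicit false

namespace Fermat.Agent.MW

open AlgebraicCurve ModularCurve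

variable (N : ℕ) [NeZero N]

/-- the master local theorem `[KLμ]` -/
theorem mw_final_klmu : mw_SeamKLmu N :=
  mw_klmu N mw_gm (mw_syl N) (mw_resa N (mw_homv mw_nss)) (mw_resb_closed N) (mw_emb N) (mw_inc N)

/-- `[GKL]` -/
theorem mw_final_gkl : mw_SeamGKL N := mw_gkl N (mw_final_klmu N) mw_ah_seamABS (mw_emb N)

/-- `[HY]` -/
theorem mw_final_hy : mw_SeamHY N := mw_hy N (mw_final_gkl N)

/-- `[HDLB]` -/
theorem mw_final_hdlb : mw_SeamHDLB N := mw_hdlb N mw_ah_seamABS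

/-- `[LEI]` -/
theorem mw_final_lei : mw_SeamLEI N := mw_lei N (mw_final_gkl N)

/-- `[NORTH]` -/
theorem mw_final_north : mw_SeamNORTH N :=
  mw_north N (mw_nstab N) (mw_npts N mw_ncbd) (mw_hx_closed N (mw_final_hy N)) (mw_final_hdlb N)

/-- `[POS1]` modulo `[VDMC]` -/
theorem mw_final_pos1 (hN : N.Prime) (hN5 : 5 ≤ N) (hVDMC : mw_SeamVDMC N) : mw_SeamPOS1 N :=
  mw_pos1 N (mw_rrk N) (mw_spec N) (mw_data_two N) (mw_data_base N) (mw_data_cpl N)
    (mw_exp N hN hN5 (mw_diag N (mw_final_gkl N) (mw_final_hy N)) (mw_evoff N (mw_final_lei N)))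
    hVDMC
    (mw_hg_closed N (mw_bllow N (mw_final_klmu N)) (mw_final_lei N) (mw_final_hy N))
    (mw_final_hy N)
    (mw_ample N (mw_final_lei N) (mw_final_hdlb N) (mw_data_base N))

/-- **S17 modulo `[VDMC]`.** -/
theorem mw_final (hN : N.Prime) (hN5 : 5 ≤ N) (hVDMC : mw_SeamVDMC N) :
    AddGroup.FG ↥(FixedPoints.addSubgroup (AlgebraicClosure ℚ ≃ₐ[ℚ] AlgebraicClosure ℚ)
      (JZero N)) :=
  mw_S17_of_all2 N (mw_unr_wmw N (mw_div2 N)) (mw_ref N) (mw_inf N)
    (mw_bil N (mw_final_lei N) (mw_mv N)) mw_abs_aquad (mw_final_pos1 N hN hN5 hVDMC) (mw_mr N)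
    (mw_naivelb N (mw_final_hdlb N)) (mw_final_north N)

/-- `[VDMC]` -/
theorem mw_final_vdmc : mw_SeamVDMC N := mw_vdmc N (mw_final_klmu N) mw_ah_seamABS (mw_emb N)

/-- **S17**: the Mordell–Weil theorem for `J₀(N)`, `N ≥ 5` prime. -/
theorem mw_final_S17 (hN : N.Prime) (hN5 : 5 ≤ N) :
    AddGroup.FG ↥(FixedPoints.addSubgroup (AlgebraicClosure ℚ ≃ₐ[ℚ] AlgebraicClosure ℚ)
      (JZero N)) :=
  mw_final N hN hN5 (mw_final_vdmc N)

end Fermat.Agent.MW
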